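/-
S55 (Poitou–Tate), package C8, leaf Z1 — helper32.

The layers of the cyclotomic `ℤ_p`-extension of a number field, at finite level and in Mathlib
vocabulary only: for an odd prime `p`, a number field `k` and `a : ℕ` there is, for every
sufficiently large `r`, an intermediate field `E` of `k(ζ_{p^r}) / k` which is Galois over `k`
with cyclic Galois group of order `p ^ a`.

* `pow_dvd_of_dvd_of_le_mul` : the arithmetic of the degree `[k(ζ_{p^(s+1)}) : k]`;
* `isCyclic_gal_cyclotomicField` : `Gal(k(ζ_{p^r})/k)` is cyclic (`p` odd);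
* `pow_dvd_finrank_cyclotomicField` : `p ^ a ∣ [k(ζ_{p^r}) : k]` for `r ≥ a + [k:ℚ] + 1`;
* `exists_cyclic_layer_of_le`, `exists_cyclic_layer` : the layer `E`.
-/
import Mathlib

set_option autoImplicit false

open scoped IntermediateField

namespace Fermat.Agent.S55.H32

/-- If `n` divides `p ^ s * (p - 1)` with a cofactor at most `d`, then `p ^ a ∣ n` as soon as
`a + d ≤ s`. -/
theorem pow_dvd_of_dvd_of_le_mul {p a d s n : ℕ} (hp : p.Prime) (hs : a + d ≤ s)
    (hdvd : n ∣ p ^ s * (p - 1)) (hle : p ^ s * (p - 1) ≤ n * d) : p ^ a ∣ n := by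
  have := Fact.mk hp
  obtain ⟨i, hi⟩ := hdvd
  have hφ : 0 < p ^ s * (p - 1) := Nat.mul_pos (pow_pos hp.pos s) (Nat.sub_pos_of_lt hp.one_lt)
  have hn : n ≠ 0 := by
    rintro rfl
    rw [zero_mul] at hi
    omega
  have hi0 : i ≠ 0 := by
    rintro rfl
    rw [mul_zero] at hi
    omega
  have hid : i ≤ d := by
    have h : n * i ≤ n * d := hi ▸ hle
    exact Nat.le_of_mul_le_mul_left h (Nat.pos_of_ne_zero hn)
  have h1 : s ≤ padicValNat p (n * i) := by
    rw [← padicValNat_dvd_iff_le (Nat.mul_ne_zero hn hi0), ← hi]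
    exact Dvd.intro _ rfl
  rw [padicValNat.mul hn hi0] at h1
  have h2 : padicValNat p i < d := by
    by_contra hcon
    have h3 : p ^ d ∣ i := (padicValNat_dvd_iff_le hi0).2 (not_lt.mp hcon)
    have h4 := Nat.le_of_dvd (Nat.pos_of_ne_zero hi0) h3
    have h5 : d < p ^ d := Nat.lt_pow_self hp.one_lt
    omega
  exact (padicValNat_dvd_iff_le hn).2 (by omega)

section Cyclotomic

variable (p : ℕ) [Fact p.Prime] (k : Type) [Field k] [NumberField k]

/-- For an odd prime `p`, the Galois group of `k(ζ_{p^r}) / k` is cyclic. -/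
theorem isCyclic_gal_cyclotomicField (hp2 : p ≠ 2) (r : ℕ) :
    IsCyclic (CyclotomicField (p ^ r) k ≃ₐ[k] CyclotomicField (p ^ r) k) := by
  have hp : p.Prime := Fact.out
  have : NeZero (p ^ r) := ⟨pow_ne_zero _ hp.ne_zero⟩
  have hζ : IsPrimitiveRoot (IsCyclotomicExtension.zeta (p ^ r) k (CyclotomicField (p ^ r) k))
      (p ^ r) := IsCyclotomicExtension.zeta_spec _ k _
  have : IsCyclic (ZMod (p ^ r))ˣ := ZMod.isCyclic_units_of_prime_pow p hp hp2 r
  exact isCyclic_of_injective (hζ.autToPow k) (hζ.autToPow_injective k)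

/-- `[k(ζ_{p^(s+1)}) : k]` divides `φ(p^(s+1)) = p ^ s * (p - 1)`. -/
theorem finrank_cyclotomicField_dvd (s : ℕ) :
    Module.finrank k (CyclotomicField (p ^ (s + 1)) k) ∣ p ^ s * (p - 1) := by
  have hp : p.Prime := Fact.out
  have : NeZero (p ^ (s + 1)) := ⟨pow_ne_zero _ hp.ne_zero⟩
  have hζ : IsPrimitiveRoot
      (IsCyclotomicExtension.zeta (p ^ (s + 1)) k (CyclotomicField (p ^ (s + 1)) k))
      (p ^ (s + 1)) := IsCyclotomicExtension.zeta_spec _ k _
  have : IsGalois k (CyclotomicField (p ^ (s + 1)) k) :=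
    IsCyclotomicExtension.isGalois {p ^ (s + 1)} k _
  have : FiniteDimensional k (CyclotomicField (p ^ (s + 1)) k) :=
    IsCyclotomicExtension.finiteDimensional {p ^ (s + 1)} k _
  have h := Subgroup.card_dvd_of_injective (hζ.autToPow k) (hζ.autToPow_injective k)
  rw [IsGalois.card_aut_eq_finrank, Nat.card_eq_fintype_card, ZMod.card_units_eq_totient,
    Nat.totient_prime_pow_succ hp s] at h
  exact h

/-- `φ(p^(s+1)) ≤ [k(ζ_{p^(s+1)}) : k] · [k : ℚ]`. -/
theorem totient_le_finrank_cyclotomicField_mul (s : ℕ) :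
    p ^ s * (p - 1) ≤
      Module.finrank k (CyclotomicField (p ^ (s + 1)) k) * Module.finrank ℚ k := by
  have hp : p.Prime := Fact.out
  have : NeZero (p ^ (s + 1)) := ⟨pow_ne_zero _ hp.ne_zero⟩
  have hζ : IsPrimitiveRoot
      (IsCyclotomicExtension.zeta (p ^ (s + 1)) k (CyclotomicField (p ^ (s + 1)) k))
      (p ^ (s + 1)) := IsCyclotomicExtension.zeta_spec _ k _
  have : FiniteDimensional k (CyclotomicField (p ^ (s + 1)) k) :=
    IsCyclotomicExtension.finiteDimensional {p ^ (s + 1)} k _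
  have : FiniteDimensional ℚ (CyclotomicField (p ^ (s + 1)) k) :=
    Module.Finite.trans k (CyclotomicField (p ^ (s + 1)) k)
  have h1 := minpoly.natDegree_le (A := ℚ)
    (IsCyclotomicExtension.zeta (p ^ (s + 1)) k (CyclotomicField (p ^ (s + 1)) k))
  rw [← Polynomial.cyclotomic_eq_minpoly_rat hζ (pow_pos hp.pos _),
    Polynomial.natDegree_cyclotomic, Nat.totient_prime_pow_succ hp s,
    ← Module.finrank_mul_finrank ℚ k (CyclotomicField (p ^ (s + 1)) k)] at h1
  rw [mul_comm (Module.finrank k _)]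
  exact h1

/-- `p ^ a` divides `[k(ζ_{p^r}) : k]` for `r ≥ a + [k:ℚ] + 1`. -/
theorem pow_dvd_finrank_cyclotomicField (a r : ℕ) (hr : a + Module.finrank ℚ k + 1 ≤ r) :
    p ^ a ∣ Module.finrank k (CyclotomicField (p ^ r) k) := by
  have hp : p.Prime := Fact.out
  obtain ⟨s, rfl⟩ : ∃ s, r = s + 1 := ⟨r - 1, by omega⟩
  exact pow_dvd_of_dvd_of_le_mul hp (d := Module.finrank ℚ k) (by omega)
    (finrank_cyclotomicField_dvd p k s) (totient_le_finrank_cyclotomicField_mul p k s)

end Cyclotomic

/-- A finite cyclic group has a subgroup of index `m` for every divisor `m` of its order. -/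
theorem exists_subgroup_index_eq {G : Type*} [Group G] [Finite G] [IsCyclic G] {m : ℕ}
    (hm : m ∣ Nat.card G) : ∃ H : Subgroup G, H.index = m := by
  obtain ⟨g, hg⟩ := IsCyclic.exists_generator (α := G)
  have hog : orderOf g = Nat.card G := orderOf_eq_card_of_forall_mem_zpowers hg
  refine ⟨Subgroup.zpowers (g ^ m), ?_⟩
  have hcard : Nat.card (Subgroup.zpowers (g ^ m)) = Nat.card G / m := by
    rw [Nat.card_zpowers, orderOf_pow, hog, Nat.gcd_eq_right hm]
  have h1 := (Subgroup.zpowers (g ^ m)).index_mul_card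
  rw [hcard] at h1
  obtain ⟨c, hc⟩ := hm
  have hpos : 0 < Nat.card G := Nat.card_pos
  have hm0 : 0 < m := by
    rcases Nat.eq_zero_or_pos m with h | h
    · rw [h, zero_mul] at hc
      omega
    · exact h
  have hc0 : 0 < c := by
    rcases Nat.eq_zero_or_pos c with h | h
    · rw [h, mul_zero] at hc
      omega
    · exact h
  rw [hc, Nat.mul_div_cancel_left c hm0] at h1
  exact Nat.eq_of_mul_eq_mul_right hc0 h1

/-- **Leaf Z1 (uniform form).**  For an odd prime `p`, a number field `k` and `a : ℕ`, every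
`k(ζ_{p^r})` with `r ≥ a + [k:ℚ] + 1` contains a subextension `E / k` which is Galois with cyclic
Galois group of order `p ^ a`. -/
theorem exists_cyclic_layer_of_le (p : ℕ) [Fact p.Prime] (hp2 : p ≠ 2) (k : Type) [Field k]
    [NumberField k] (a r : ℕ) (hr : a + Module.finrank ℚ k + 1 ≤ r) :
    ∃ E : IntermediateField k (CyclotomicField (p ^ r) k),
      IsGalois k E ∧ IsCyclic (E ≃ₐ[k] E) ∧ Module.finrank k E = p ^ a := by
  have hp : p.Prime := Fact.out
  have : NeZero (p ^ r) := ⟨pow_ne_zero _ hp.ne_zero⟩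
  have : IsGalois k (CyclotomicField (p ^ r) k) := IsCyclotomicExtension.isGalois {p ^ r} k _
  have : FiniteDimensional k (CyclotomicField (p ^ r) k) :=
    IsCyclotomicExtension.finiteDimensional {p ^ r} k _
  have hcyc := isCyclic_gal_cyclotomicField p k hp2 r
  have hdvd : p ^ a ∣ Nat.card (CyclotomicField (p ^ r) k ≃ₐ[k] CyclotomicField (p ^ r) k) := by
    rw [IsGalois.card_aut_eq_finrank]
    exact pow_dvd_finrank_cyclotomicField p k a r hr
  obtain ⟨H, hH⟩ := exists_subgroup_index_eq hdvd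
  have hN : H.Normal := Subgroup.normal_of_isMulCommutative H
  have hGal : IsGalois k (IntermediateField.fixedField H) := inferInstance
  refine ⟨IntermediateField.fixedField H, hGal, ?_, ?_⟩
  · exact isCyclic_of_surjective
      (AlgEquiv.restrictNormalHom (F := k) (K₁ := CyclotomicField (p ^ r) k)
        (IntermediateField.fixedField H))
      (AlgEquiv.restrictNormalHom_surjective (F := k)
        (K₁ := IntermediateField.fixedField H) (CyclotomicField (p ^ r) k))
  · rw [IntermediateField.finrank_eq_fixingSubgroup_index,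
      IntermediateField.fixingSubgroup_fixedField, hH]

/-- **Leaf Z1.**  For an odd prime `p`, a number field `k` and `a : ℕ` there are `r` and a
subextension `E / k` of `k(ζ_{p^r}) / k` which is Galois with cyclic Galois group of order
`p ^ a`. -/
theorem exists_cyclic_layer (p : ℕ) [Fact p.Prime] (hp2 : p ≠ 2) (k : Type) [Field k]
    [NumberField k] (a : ℕ) :
    ∃ (r : ℕ) (E : IntermediateField k (CyclotomicField (p ^ r) k)),
      IsGalois k E ∧ IsCyclic (E ≃ₐ[k] E) ∧ Module.finrank k E = p ^ a :=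
  ⟨a + Module.finrank ℚ k + 1, exists_cyclic_layer_of_le p hp2 k a _ le_rfl⟩

end Fermat.Agent.S55.H32
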