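/-
S55 (Poitou–Tate), package C8, leaf Z2 (local part) — helper32.

Local degree of the `p`-power cyclotomic extensions of `ℚ_q`, in the `PadicAlgCl q` model
(helper88's `integerRing`): there is a constant `c = c(p, q)` such that every finite extension
`K` of `ℚ_q` inside `PadicAlgCl q` containing a primitive `p ^ r`-th root of unity has
`p ^ r ≤ p ^ c * [K : ℚ_q]` (`p` odd).

* `exists_pow_dvd_pow_mul_of_dvd_pow_sub_one` : lifting the exponent, uniform form;
* `exists_card_residueField` : the residue field of `K` has `q ^ f` elements, `0 < f ≤ [K : ℚ_q]`;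
* `pow_dvd_card_residueField_sub_one` : for `p ≠ q`, a primitive `p ^ r`-th root of unity in `K`
  gives `p ^ r ∣ #κ - 1`;
* `totient_dvd_finrank_of_primitiveRoot` : for `q = p`, `φ(p ^ r) ∣ [K : ℚ_p]`;
* `exists_bound_of_primitiveRoot` : the uniform bound.
-/
import Mathlib
import Fermat.Agent.S55.H88.LocalInt

set_option autoImplicit false
set_option linter.style.haveILetI false

open scoped IntermediateField

namespace Fermat.Agent.S55.H32

open Fermat.Agent.S55

/-- **Lifting the exponent, uniform form.**  For an odd prime `p` and `q > 1` there is `c` such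
that `p ^ r ∣ q ^ f - 1` (with `f > 0`) implies `p ^ r ∣ p ^ c * f`. -/
theorem exists_pow_dvd_pow_mul_of_dvd_pow_sub_one (p q : ℕ) [Fact p.Prime] (hp2 : p ≠ 2)
    (hq : 1 < q) :
    ∃ c : ℕ, ∀ r f : ℕ, 0 < f → p ^ r ∣ q ^ f - 1 → p ^ r ∣ p ^ c * f := by
  have hp : p.Prime := Fact.out
  have hodd : Odd p := hp.odd_of_ne_two hp2
  set d := orderOf ((q : ℕ) : ZMod p) with hd
  refine ⟨padicValNat p (q ^ d - 1), fun r f hf hdvd => ?_⟩
  rcases Nat.eq_zero_or_pos r with hr | hr
  · rw [hr, pow_zero]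
    exact one_dvd _
  have hqf : 1 ≤ q ^ f := Nat.one_le_pow _ _ (by omega)
  have hpf : p ∣ q ^ f - 1 := (dvd_pow_self p hr.ne').trans hdvd
  have hxf : ((q : ℕ) : ZMod p) ^ f = 1 := by
    have h1 : ((q ^ f - 1 : ℕ) : ZMod p) = 0 := (ZMod.natCast_eq_zero_iff _ _).2 hpf
    rw [Nat.cast_sub hqf, Nat.cast_pow, Nat.cast_one, sub_eq_zero] at h1
    exact h1
  have hdf : d ∣ f := orderOf_dvd_of_pow_eq_one hxf
  obtain ⟨m, rfl⟩ := hdf
  have hd0 : 0 < d := Nat.pos_of_ne_zero (by rintro h; rw [h, zero_mul] at hf; omega)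
  have hm0 : 0 < m := Nat.pos_of_ne_zero (by rintro h; rw [h, mul_zero] at hf; omega)
  have hqd : 1 < q ^ d := Nat.one_lt_pow hd0.ne' hq
  have hpd : p ∣ q ^ d - 1 := by
    have h1 : ((q : ℕ) : ZMod p) ^ d = 1 := pow_orderOf_eq_one _
    rw [← (ZMod.natCast_eq_zero_iff _ _), Nat.cast_sub hqd.le, Nat.cast_pow, Nat.cast_one, h1,
      sub_self]
  have hnd : ¬ p ∣ q ^ d := by
    intro h
    have h2 : p ∣ q ^ d - (q ^ d - 1) := Nat.dvd_sub h hpd
    have h3 : q ^ d - (q ^ d - 1) = 1 := by omega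
    rw [h3] at h2
    exact hp.one_lt.ne' (Nat.dvd_one.mp h2)
  have hlte := padicValNat.pow_sub_pow hodd hqd hpd hnd hm0.ne'
  rw [one_pow, ← pow_mul] at hlte
  have hne : q ^ (d * m) - 1 ≠ 0 := by
    have : 1 < q ^ (d * m) := Nat.one_lt_pow (Nat.mul_pos hd0 hm0).ne' hq
    omega
  have hr1 : r ≤ padicValNat p (q ^ (d * m) - 1) := (padicValNat_dvd_iff_le hne).1 hdvd
  rw [hlte] at hr1
  rcases le_total r (padicValNat p (q ^ d - 1)) with hrc | hrc
  · exact (pow_dvd_pow p hrc).trans (Dvd.intro _ rfl)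
  · have h4 : p ^ (r - padicValNat p (q ^ d - 1)) ∣ m :=
      (padicValNat_dvd_iff_le hm0.ne').2 (by omega)
    have h5 : p ^ r = p ^ padicValNat p (q ^ d - 1) * p ^ (r - padicValNat p (q ^ d - 1)) := by
      rw [← pow_add]
      congr 1
      omega
    rw [h5]
    exact Nat.mul_dvd_mul_left _ (h4.trans (Dvd.intro_left d rfl))

section Residue

variable {q : ℕ} [Fact q.Prime] (K : IntermediateField ℚ_[q] (PadicAlgCl q))

/-- The norm of `K` restricts to the `q`-adic norm on `ℚ_q`. -/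
theorem norm_algebraMap_padic (c : ℚ_[q]) : ‖(algebraMap ℚ_[q] K c : K)‖ = ‖c‖ :=
  PadicAlgCl.norm_extends q c

/-- The residue class of a `q`-adic integer in the residue field of `K` is the class of a
natural number. -/
theorem exists_natCast_residue (c : ℚ_[q]) (hc : ‖c‖ ≤ 1) :
    ∃ a : ℕ, ∀ h : algebraMap ℚ_[q] K c ∈ H88.integerRing K,
      IsLocalRing.residue (H88.integerRing K) ⟨algebraMap ℚ_[q] K c, h⟩
        = (a : IsLocalRing.ResidueField (H88.integerRing K)) := by
  let z : ℤ_[q] := ⟨c, hc⟩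
  obtain ⟨a, -, ha⟩ := PadicInt.exists_mem_range z
  refine ⟨a, fun h => ?_⟩
  have h1 : ‖c - (a : ℚ_[q])‖ < 1 := by
    have h0 : ‖z - (a : ℤ_[q])‖ < 1 :=
      PadicInt.mem_nonunits.1 ((IsLocalRing.mem_maximalIdeal _).1 ha)
    rw [PadicInt.norm_def, PadicInt.coe_sub, PadicInt.coe_natCast] at h0
    exact h0
  have h2 : (algebraMap ℚ_[q] K c - (a : K)) ∈ (H88.integerRing K).nonunits := by
    rw [H88.mem_nonunits_integerRing_iff]
    have h3 : (algebraMap ℚ_[q] K c - (a : K)) = algebraMap ℚ_[q] K (c - (a : ℚ_[q])) := by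
      rw [map_sub, map_natCast]
    rw [h3, norm_algebraMap_padic]
    exact h1
  rw [ValuationSubring.mem_nonunits_iff_exists_mem_maximalIdeal] at h2
  obtain ⟨h3, h4⟩ := h2
  have h5 : (⟨algebraMap ℚ_[q] K c, h⟩ : H88.integerRing K) - (a : H88.integerRing K)
      = ⟨algebraMap ℚ_[q] K c - (a : K), h3⟩ := Subtype.ext (by simp)
  rw [← sub_eq_zero, ← map_natCast (IsLocalRing.residue (H88.integerRing K)) a, ← map_sub, h5,
    IsLocalRing.residue_eq_zero_iff]
  exact h4

/-- Elements of the ring of integers of `K` whose residue classes are linearly independent over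
the prime field are linearly independent over `ℚ_q`. -/
theorem linearIndependent_of_residue {m : ℕ} (x : Fin m → H88.integerRing K)
    (hx : letI := H88.charP_residueField K
      letI : Algebra (ZMod q) (IsLocalRing.ResidueField (H88.integerRing K)) := ZMod.algebra _ q
      LinearIndependent (ZMod q) (fun i => IsLocalRing.residue (H88.integerRing K) (x i))) :
    LinearIndependent ℚ_[q] (fun i => ((x i : H88.integerRing K) : K)) := by
  classical
  letI := H88.charP_residueField K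
  letI : Algebra (ZMod q) (IsLocalRing.ResidueField (H88.integerRing K)) := ZMod.algebra _ q
  by_contra hdep
  obtain ⟨g, hsum, j0, hj0⟩ := Fintype.not_linearIndependent_iff.1 hdep
  obtain ⟨j, -, hj⟩ := Finset.exists_max_image Finset.univ (fun i => ‖g i‖)
    ⟨j0, Finset.mem_univ _⟩
  have hgj : g j ≠ 0 := by
    intro h
    have h1 := hj j0 (Finset.mem_univ _)
    rw [h, norm_zero] at h1
    exact hj0 (norm_le_zero_iff.1 h1)
  have hd : ∀ i, ‖g i / g j‖ ≤ 1 := fun i => by
    rw [norm_div]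
    exact div_le_one_of_le₀ (hj i (Finset.mem_univ _)) (norm_nonneg _)
  have hmem : ∀ i, algebraMap ℚ_[q] K (g i / g j) ∈ H88.integerRing K := fun i => by
    rw [H88.mem_integerRing_iff, norm_algebraMap_padic]
    exact hd i
  choose a ha using fun i => exists_natCast_residue K (g i / g j) (hd i)
  have hrel : ∑ i, (⟨algebraMap ℚ_[q] K (g i / g j), hmem i⟩ : H88.integerRing K) * x i = 0 := by
    apply Subtype.ext
    rw [AddSubmonoidClass.coe_finsetSum]
    have h1 : ∀ i, (((⟨algebraMap ℚ_[q] K (g i / g j), hmem i⟩ : H88.integerRing K) * x i :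
        H88.integerRing K) : K) = (g j)⁻¹ • (g i • ((x i : H88.integerRing K) : K)) := fun i => by
      show algebraMap ℚ_[q] K (g i / g j) * ((x i : H88.integerRing K) : K) = _
      rw [smul_smul, Algebra.smul_def, div_eq_inv_mul]
    simp only [h1]
    rw [← Finset.smul_sum, hsum, smul_zero]
    rfl
  have hres := congrArg (IsLocalRing.residue (H88.integerRing K)) hrel
  rw [map_sum, map_zero] at hres
  simp only [map_mul, ha _ (hmem _)] at hres
  have hlin := Fintype.linearIndependent_iff.1 hx (fun i => (a i : ZMod q)) (by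
    simp only [Algebra.smul_def, map_natCast]
    exact hres)
  have h1 := congrArg (algebraMap (ZMod q) (IsLocalRing.ResidueField (H88.integerRing K)))
    (hlin j)
  rw [map_natCast, map_zero] at h1
  have haj : (a j : IsLocalRing.ResidueField (H88.integerRing K)) = 1 := by
    rw [← ha j (hmem j)]
    have h2 : (⟨algebraMap ℚ_[q] K (g j / g j), hmem j⟩ : H88.integerRing K) = 1 :=
      Subtype.ext (by
        show algebraMap ℚ_[q] K (g j / g j) = 1
        rw [div_self hgj, map_one])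
    rw [h2, map_one]
  rw [haj] at h1
  exact one_ne_zero h1

variable [FiniteDimensional ℚ_[q] K]

/-- The residue field of `K` has `q ^ f` elements with `0 < f ≤ [K : ℚ_q]`. -/
theorem exists_card_residueField :
    ∃ f : ℕ, 0 < f ∧ f ≤ Module.finrank ℚ_[q] K ∧
      Nat.card (IsLocalRing.ResidueField (H88.integerRing K)) = q ^ f := by
  classical
  letI := H88.charP_residueField K
  letI : Algebra (ZMod q) (IsLocalRing.ResidueField (H88.integerRing K)) := ZMod.algebra _ q
  haveI : Finite (IsLocalRing.ResidueField (H88.integerRing K)) := H88.finite_residueField K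
  letI := Fintype.ofFinite (IsLocalRing.ResidueField (H88.integerRing K))
  let b := Module.finBasis (ZMod q) (IsLocalRing.ResidueField (H88.integerRing K))
  choose x hx using fun i => IsLocalRing.residue_surjective (b i)
  have hb : LinearIndependent (ZMod q)
      (fun i => IsLocalRing.residue (H88.integerRing K) (x i)) := by
    have h1 : (fun i => IsLocalRing.residue (H88.integerRing K) (x i)) = b := funext hx
    rw [h1]
    exact b.linearIndependent
  have hli := linearIndependent_of_residue K x hb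
  have hle := hli.fintype_card_le_finrank
  rw [Fintype.card_fin] at hle
  refine ⟨Module.finrank (ZMod q) (IsLocalRing.ResidueField (H88.integerRing K)),
    Module.finrank_pos, hle, ?_⟩
  rw [Nat.card_eq_fintype_card,
    Module.card_eq_pow_finrank (K := ZMod q) (V := IsLocalRing.ResidueField (H88.integerRing K)),
    ZMod.card]

/-- For `p ≠ q`, a primitive `p ^ r`-th root of unity in `K` has a residue class of order
`p ^ r`, so `p ^ r` divides the order of the multiplicative group of the residue field. -/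
theorem pow_dvd_card_residueField_sub_one {p : ℕ} [Fact p.Prime] (hpq : p ≠ q) {r : ℕ} (ζ : K)
    (hζ : IsPrimitiveRoot ζ (p ^ r)) :
    p ^ r ∣ Nat.card (IsLocalRing.ResidueField (H88.integerRing K)) - 1 := by
  classical
  haveI : Finite (IsLocalRing.ResidueField (H88.integerRing K)) := H88.finite_residueField K
  letI := H88.charP_residueField K
  letI := Fintype.ofFinite (IsLocalRing.ResidueField (H88.integerRing K))
  have hp : p.Prime := Fact.out
  rcases Nat.eq_zero_or_pos r with hr | hr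
  · rw [hr, pow_zero]
    exact one_dvd _
  obtain ⟨s, rfl⟩ : ∃ s, r = s + 1 := ⟨r - 1, by omega⟩
  have hζO : ζ ∈ H88.integerRing K := by
    rw [H88.mem_integerRing_iff]
    have h1 : ‖ζ‖ ^ p ^ (s + 1) = 1 := by rw [← norm_pow, hζ.pow_eq_one, norm_one]
    exact ((pow_eq_one_iff_of_nonneg (norm_nonneg _) (pow_pos hp.pos _).ne').1 h1).le
  have hz1 : (IsLocalRing.residue (H88.integerRing K) ⟨ζ, hζO⟩) ^ p ^ (s + 1) = 1 := by
    rw [← map_pow]
    have h1 : (⟨ζ, hζO⟩ : H88.integerRing K) ^ p ^ (s + 1) = 1 :=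
      Subtype.ext (by
        rw [SubmonoidClass.coe_pow]
        exact hζ.pow_eq_one)
    rw [h1, map_one]
  have hz2 : ¬ (IsLocalRing.residue (H88.integerRing K) ⟨ζ, hζO⟩) ^ p ^ s = 1 := by
    intro h
    have hη : IsPrimitiveRoot (ζ ^ p ^ s) p := hζ.pow (pow_pos hp.pos _) (pow_succ p s)
    have hsum := hη.geom_sum_eq_zero hp.one_lt
    have hsumO : ∑ i ∈ Finset.range p, ((⟨ζ, hζO⟩ : H88.integerRing K) ^ p ^ s) ^ i = 0 :=
      Subtype.ext (by
        rw [AddSubmonoidClass.coe_finsetSum]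
        simp only [SubmonoidClass.coe_pow]
        exact hsum)
    have h1 := congrArg (IsLocalRing.residue (H88.integerRing K)) hsumO
    rw [map_sum, map_zero] at h1
    simp only [map_pow, h, one_pow, Finset.sum_const, Finset.card_range, nsmul_eq_mul,
      mul_one] at h1
    have h2 := (CharP.cast_eq_zero_iff (IsLocalRing.ResidueField (H88.integerRing K)) q p).1 h1
    exact hpq ((Nat.prime_dvd_prime_iff_eq Fact.out hp).1 h2).symm
  have hord := orderOf_eq_prime_pow hz2 hz1
  have hz0 : IsLocalRing.residue (H88.integerRing K) ⟨ζ, hζO⟩ ≠ 0 := by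
    intro h
    rw [h, zero_pow (pow_pos hp.pos _).ne'] at hz1
    exact zero_ne_one hz1
  have h3 := FiniteField.pow_card_sub_one_eq_one _ hz0
  rw [← hord, Nat.card_eq_fintype_card]
  exact orderOf_dvd_of_pow_eq_one h3

end Residue

section Ramified

variable {p : ℕ} [Fact p.Prime]

/-- `‖1 - x ^ i‖ ≤ ‖1 - x‖` for `‖x‖ ≤ 1` in `PadicAlgCl p`. -/
theorem norm_one_sub_pow_le (x : PadicAlgCl p) (hx : ‖x‖ ≤ 1) (i : ℕ) :
    ‖1 - x ^ i‖ ≤ ‖1 - x‖ := by
  rw [← geom_sum_mul_neg x i, norm_mul]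
  have h1 : ‖∑ j ∈ Finset.range i, x ^ j‖ ≤ 1 := by
    have h2 : ∀ j ∈ Finset.range i, ‖x ^ j‖ ≤ 1 := fun j _ => by
      rw [norm_pow]
      exact pow_le_one₀ (norm_nonneg _) hx
    exact IsUltrametricDist.norm_sum_le_of_forall_le_of_nonneg zero_le_one h2
  exact mul_le_of_le_one_left (norm_nonneg _) h1

/-- For a primitive `p ^ (s + 1)`-th root of unity `ζ` in `PadicAlgCl p`:
`‖1 - ζ‖ ^ φ(p ^ (s + 1)) = p⁻¹`. -/
theorem norm_one_sub_primitiveRoot_pow (s : ℕ) (ζ : PadicAlgCl p)
    (hζ : IsPrimitiveRoot ζ (p ^ (s + 1))) :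
    ‖1 - ζ‖ ^ Nat.totient (p ^ (s + 1)) = (p : ℝ)⁻¹ := by
  have hp : p.Prime := Fact.out
  have hpos : 0 < p ^ (s + 1) := pow_pos hp.pos _
  haveI : NeZero (p ^ (s + 1)) := ⟨hpos.ne'⟩
  have hcyc := Polynomial.cyclotomic_eq_prod_X_sub_primitiveRoots hζ
  have heval := congrArg (Polynomial.eval 1) hcyc
  rw [Polynomial.eval_one_cyclotomic_prime_pow, Polynomial.eval_prod] at heval
  simp only [Polynomial.eval_sub, Polynomial.eval_X, Polynomial.eval_C] at heval
  have hnorm := congrArg norm heval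
  rw [norm_prod] at hnorm
  have hone : ∀ μ ∈ primitiveRoots (p ^ (s + 1)) (PadicAlgCl p), ‖1 - μ‖ = ‖1 - ζ‖ := by
    intro μ hμ
    have hμ' : IsPrimitiveRoot μ (p ^ (s + 1)) := (mem_primitiveRoots hpos).1 hμ
    have hn1 : ∀ z : PadicAlgCl p, z ^ p ^ (s + 1) = 1 → ‖z‖ ≤ 1 := fun z hz => by
      have h1 : ‖z‖ ^ p ^ (s + 1) = 1 := by rw [← norm_pow, hz, norm_one]
      exact ((pow_eq_one_iff_of_nonneg (norm_nonneg _) hpos.ne').1 h1).le
    obtain ⟨i, -, hi⟩ := hζ.eq_pow_of_pow_eq_one hμ'.pow_eq_one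
    obtain ⟨j, -, hj⟩ := hμ'.eq_pow_of_pow_eq_one hζ.pow_eq_one
    apply le_antisymm
    · rw [← hi]
      exact norm_one_sub_pow_le ζ (hn1 ζ hζ.pow_eq_one) i
    · rw [← hj]
      exact norm_one_sub_pow_le μ (hn1 μ hμ'.pow_eq_one) j
  rw [Finset.prod_congr rfl hone, Finset.prod_const, hζ.card_primitiveRoots] at hnorm
  rw [← hnorm]
  have h2 : ((p : ℕ) : PadicAlgCl p) = algebraMap ℚ_[p] (PadicAlgCl p) (p : ℚ_[p]) := by
    rw [map_natCast]
  rw [h2, PadicAlgCl.norm_extends, Padic.norm_p]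

/-- For `q = p`: a finite extension of `ℚ_p` containing a primitive `p ^ (s + 1)`-th root of
unity has degree divisible by `φ(p ^ (s + 1))` (total ramification). -/
theorem totient_dvd_finrank_of_primitiveRoot (K : IntermediateField ℚ_[p] (PadicAlgCl p))
    [FiniteDimensional ℚ_[p] K] (s : ℕ) (ζ : K) (hζ : IsPrimitiveRoot ζ (p ^ (s + 1))) :
    Nat.totient (p ^ (s + 1)) ∣ Module.finrank ℚ_[p] K := by
  have hp : p.Prime := Fact.out
  have hζ' : IsPrimitiveRoot ((ζ : K) : PadicAlgCl p) (p ^ (s + 1)) :=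
    hζ.map_of_injective (algebraMap K (PadicAlgCl p)).injective
  have h1 := norm_one_sub_primitiveRoot_pow s _ hζ'
  have hne : (1 - ζ : K) ≠ 0 := by
    intro h
    have h2 : ζ = 1 := (sub_eq_zero.1 h).symm
    have h3 := hζ.unique (h2 ▸ IsPrimitiveRoot.one)
    have h4 : 1 < p ^ (s + 1) := Nat.one_lt_pow (Nat.succ_ne_zero s) hp.one_lt
    omega
  obtain ⟨m, hm⟩ := H88.exists_norm_pow_eq_zpow K hne
  have h5 : (((1 - ζ : K) : K) : PadicAlgCl p) = 1 - (ζ : PadicAlgCl p) := rfl
  rw [h5] at hm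
  have hp0 : (0 : ℝ) < p := by exact_mod_cast hp.pos
  have hp1 : (p : ℝ) ≠ 1 := by exact_mod_cast hp.one_lt.ne'
  have h6 : (p : ℝ) ^ (-(Module.finrank ℚ_[p] K : ℤ))
      = (p : ℝ) ^ (-m * (Nat.totient (p ^ (s + 1)) : ℤ)) := by
    rw [zpow_mul, ← hm, zpow_natCast, ← pow_mul, mul_comm, pow_mul, h1, zpow_neg, zpow_natCast,
      inv_pow]
  have h7 := zpow_right_injective₀ hp0 hp1 h6
  have h8 : ((Nat.totient (p ^ (s + 1)) : ℕ) : ℤ) ∣ (Module.finrank ℚ_[p] K : ℤ) :=
    ⟨m, by linarith⟩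
  exact Int.natCast_dvd_natCast.1 h8

end Ramified

/-- **Leaf Z2, local part.**  For an odd prime `p` and a prime `q` there is `c` such that every
finite extension `K` of `ℚ_q` inside `PadicAlgCl q` containing a primitive `p ^ r`-th root of
unity satisfies `p ^ r ≤ p ^ c * [K : ℚ_q]`. -/
theorem exists_bound_of_primitiveRoot (p q : ℕ) [Fact p.Prime] [Fact q.Prime] (hp2 : p ≠ 2) :
    ∃ c : ℕ, ∀ (r : ℕ) (K : IntermediateField ℚ_[q] (PadicAlgCl q)) [FiniteDimensional ℚ_[q] K]
      (ζ : K), IsPrimitiveRoot ζ (p ^ r) → p ^ r ≤ p ^ c * Module.finrank ℚ_[q] K := by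
  have hp : p.Prime := Fact.out
  have hq : q.Prime := Fact.out
  by_cases hpq : p = q
  · subst hpq
    refine ⟨1, fun r K _ ζ hζ => ?_⟩
    have hn : 0 < Module.finrank ℚ_[p] K := Module.finrank_pos
    rcases Nat.eq_zero_or_pos r with hr | hr
    · rw [hr, pow_zero]
      exact Nat.mul_pos (pow_pos hp.pos 1) hn
    obtain ⟨s, rfl⟩ : ∃ s, r = s + 1 := ⟨r - 1, by omega⟩
    have h1 := Nat.le_of_dvd hn (totient_dvd_finrank_of_primitiveRoot K s ζ hζ)
    rw [Nat.totient_prime_pow_succ hp s] at h1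
    have h2 : p ^ s ≤ p ^ s * (p - 1) := Nat.le_mul_of_pos_right _ (Nat.sub_pos_of_lt hp.one_lt)
    calc p ^ (s + 1) = p ^ 1 * p ^ s := by rw [pow_one, pow_succ, mul_comm]
      _ ≤ p ^ 1 * Module.finrank ℚ_[p] K := Nat.mul_le_mul_left _ (h2.trans h1)
  · obtain ⟨c, hc⟩ := exists_pow_dvd_pow_mul_of_dvd_pow_sub_one p q hp2 hq.one_lt
    refine ⟨c, fun r K _ ζ hζ => ?_⟩
    obtain ⟨f, hf0, hfn, hcard⟩ := exists_card_residueField K
    have h1 := pow_dvd_card_residueField_sub_one K hpq ζ hζ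
    rw [hcard] at h1
    have h2 := hc r f hf0 h1
    have h3 := Nat.le_of_dvd (Nat.mul_pos (pow_pos hp.pos c) hf0) h2
    exact h3.trans (Nat.mul_le_mul_left _ hfn)

end Fermat.Agent.S55.H32
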