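/-
S55 (Poitou–Tate), package C8, leaf Z2 (global part) — helper32.

Growth of the local degrees of the layers of the cyclotomic `ℤ_p`-extension of a number field
`k`, in helper88's embedding model: for an odd prime `p` and a prime `q` there is a constant
`c = c(k, p, q)` such that for every subextension `E / k` of `k(ζ_{p^r}) / k` of degree `p ^ a`
and every embedding `τ : E →+* PadicAlgCl q`, the decomposition group of `E / k` at `τ` has order
divisible by `p ^ (a - c)`:

  `p ^ a ∣ p ^ c * #D_τ(E/k)`.

* `finrank_locField_le` : `[k_v : ℚ_q] ≤ [k : ℚ]`;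
* `finrank_cyclotomicField_le` : `[k(ζ_n) : k] ≤ n`;
* `isGalois_of_cyclotomicField` : every subextension of `k(ζ_{p^r}) / k` is Galois;
* `exists_bound_decompGroup` : the growth statement.
-/
import Mathlib
import Fermat.Agent.S55.H20.Decomp
import Fermat.Agent.S55.H88.SemiLocalBasic
import Fermat.Agent.S55.H32.CycLayer
import Fermat.Agent.S55.H32.CycLocal

set_option autoImplicit false
set_option linter.style.haveILetI false

open scoped IntermediateField
open Module

namespace Fermat.Agent.S55.H32

open Fermat.Agent.S55 Fermat.Agent.S55.H88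

/-- `[k_v : ℚ_q] ≤ [k : ℚ]` for every embedding `τ` of a number field `k` into `PadicAlgCl q`. -/
theorem finrank_locField_le (q : ℕ) [Fact q.Prime] (k : Type*) [Field k] [NumberField k]
    (τ : k →+* PadicAlgCl q) : finrank ℚ_[q] (locField q τ) ≤ finrank ℚ k := by
  obtain ⟨α, hα⟩ := Field.exists_primitive_element ℚ k
  have hα' : IsIntegral ℚ α := Algebra.IsIntegral.isIntegral α
  rw [locField_eq_adjoin_simple q τ α hα,
    IntermediateField.adjoin.finrank (Algebra.IsIntegral.isIntegral (τ α))]
  have h1 : Polynomial.aeval (τ α) ((minpoly ℚ α).map (algebraMap ℚ ℚ_[q])) = 0 := by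
    have h2 : τ (Polynomial.aeval α (minpoly ℚ α))
        = Polynomial.aeval (τ α) ((minpoly ℚ α).map (algebraMap ℚ ℚ_[q])) := by
      rw [Polynomial.aeval_def, Polynomial.hom_eval₂, Polynomial.aeval_def,
        Polynomial.eval₂_map]
      congr 1
      exact Subsingleton.elim _ _
    rw [← h2, minpoly.aeval, map_zero]
  have h3 := Polynomial.natDegree_le_of_dvd (minpoly.dvd ℚ_[q] (τ α) h1)
    (Polynomial.map_ne_zero (minpoly.ne_zero hα'))
  rw [Polynomial.natDegree_map] at h3
  have h4 : (minpoly ℚ α).natDegree = finrank ℚ k := by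
    rw [← IntermediateField.adjoin.finrank hα', hα, IntermediateField.finrank_top']
  rw [← h4]
  exact h3

/-- `[k(ζ_n) : k] ≤ n`. -/
theorem finrank_cyclotomicField_le (n : ℕ) [NeZero n] (k : Type) [Field k] [NumberField k] :
    finrank k (CyclotomicField n k) ≤ n := by
  have hζ : IsPrimitiveRoot (IsCyclotomicExtension.zeta n k (CyclotomicField n k)) n :=
    IsCyclotomicExtension.zeta_spec _ k _
  haveI : IsGalois k (CyclotomicField n k) := IsCyclotomicExtension.isGalois {n} k _
  haveI : FiniteDimensional k (CyclotomicField n k) :=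
    IsCyclotomicExtension.finiteDimensional {n} k _
  have h := Subgroup.card_dvd_of_injective (hζ.autToPow k) (hζ.autToPow_injective k)
  rw [IsGalois.card_aut_eq_finrank, Nat.card_eq_fintype_card, ZMod.card_units_eq_totient] at h
  exact (Nat.le_of_dvd (Nat.totient_pos.2 (NeZero.pos n)) h).trans (Nat.totient_le n)

/-- Every subextension of `k(ζ_{p^r}) / k` (`p` odd) is Galois over `k`. -/
theorem isGalois_of_cyclotomicField (p : ℕ) [Fact p.Prime] (hp2 : p ≠ 2) (k : Type) [Field k]
    [NumberField k] (r : ℕ) (E : IntermediateField k (CyclotomicField (p ^ r) k)) :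
    IsGalois k E := by
  have hp : p.Prime := Fact.out
  haveI : NeZero (p ^ r) := ⟨pow_ne_zero _ hp.ne_zero⟩
  haveI : IsGalois k (CyclotomicField (p ^ r) k) := IsCyclotomicExtension.isGalois {p ^ r} k _
  haveI : FiniteDimensional k (CyclotomicField (p ^ r) k) :=
    IsCyclotomicExtension.finiteDimensional {p ^ r} k _
  haveI hcyc := isCyclic_gal_cyclotomicField p k hp2 r
  haveI hN : (E.fixingSubgroup).Normal := Subgroup.normal_of_isMulCommutative _
  have h := IsGalois.of_fixedField_normal_subgroup E.fixingSubgroup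
  rw [IsGalois.fixedField_fixingSubgroup E] at h
  exact h

/-- **Leaf Z2.**  Growth of the local degrees in the cyclotomic `ℤ_p`-tower: there is a constant
`c` (depending on `k`, `p`, `q` only) such that for every subextension `E / k` of
`k(ζ_{p^r}) / k` of degree `p ^ a` and every embedding `τ` of `E` into `PadicAlgCl q`,
`p ^ a ∣ p ^ c * #D_τ(E/k)`. -/
theorem exists_bound_decompGroup (p q : ℕ) [Fact p.Prime] [Fact q.Prime] (hp2 : p ≠ 2)
    (k : Type) [Field k] [NumberField k] :
    ∃ c : ℕ, ∀ (a r : ℕ) (E : IntermediateField k (CyclotomicField (p ^ r) k)),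
      finrank k E = p ^ a → ∀ τ : E →+* PadicAlgCl q,
        p ^ a ∣ p ^ c * Nat.card (decompGroup q k τ) := by
  have hp : p.Prime := Fact.out
  obtain ⟨c, hc⟩ := exists_bound_of_primitiveRoot p q hp2
  refine ⟨c + finrank ℚ k, fun a r E hE τ => ?_⟩
  haveI : NeZero (p ^ r) := ⟨pow_ne_zero _ hp.ne_zero⟩
  haveI : IsGalois k (CyclotomicField (p ^ r) k) := IsCyclotomicExtension.isGalois {p ^ r} k _
  haveI : FiniteDimensional k (CyclotomicField (p ^ r) k) :=
    IsCyclotomicExtension.finiteDimensional {p ^ r} k _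
  haveI hEgal : IsGalois k E := isGalois_of_cyclotomicField p hp2 k r E
  -- extend `τ` to `k(ζ_{p^r})`
  obtain ⟨τ', hτ'⟩ := exists_extend (K := CyclotomicField (p ^ r) k) q τ
  have hζ : IsPrimitiveRoot
      (IsCyclotomicExtension.zeta (p ^ r) k (CyclotomicField (p ^ r) k)) (p ^ r) :=
    IsCyclotomicExtension.zeta_spec _ k _
  have hmem : τ' (IsCyclotomicExtension.zeta (p ^ r) k (CyclotomicField (p ^ r) k))
      ∈ locField q τ' := IntermediateField.subset_adjoin ℚ_[q] (Set.range τ') ⟨_, rfl⟩
  have hprim : IsPrimitiveRoot (⟨_, hmem⟩ : locField q τ') (p ^ r) :=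
    IsPrimitiveRoot.of_map_of_injective (f := algebraMap (locField q τ') (PadicAlgCl q))
      (hζ.map_of_injective τ'.injective) (algebraMap (locField q τ') (PadicAlgCl q)).injective
  have hloc := hc r (locField q τ') ⟨_, hmem⟩ hprim
  -- the two local degree formulas
  have hd1 := H20.localDegree q E τ'
  rw [hτ'] at hd1
  have hd2 := H20.localDegree q k τ
  have hkv := finrank_locField_le q k (τ.comp (algebraMap k E))
  -- sizes
  have hD1 : Nat.card (decompGroup q E τ') ≤ finrank E (CyclotomicField (p ^ r) k) := by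
    rw [← IsGalois.card_aut_eq_finrank]
    exact Nat.le_of_dvd Nat.card_pos (Subgroup.card_subgroup_dvd_card _)
  have hN : finrank k E * finrank E (CyclotomicField (p ^ r) k)
      = finrank k (CyclotomicField (p ^ r) k) := Module.finrank_mul_finrank k E _
  have hKr := finrank_cyclotomicField_le (p ^ r) k
  have hDdvd : Nat.card (decompGroup q k τ) ∣ p ^ a := by
    rw [← hE, ← IsGalois.card_aut_eq_finrank]
    exact Subgroup.card_subgroup_dvd_card _
  obtain ⟨j, -, hj⟩ := (Nat.dvd_prime_pow hp).1 hDdvd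
  rw [hj]
  rw [hj] at hd2
  -- arithmetic
  have hNpos : 0 < finrank E (CyclotomicField (p ^ r) k) := Module.finrank_pos
  have hdlt : finrank ℚ k < p ^ finrank ℚ k := Nat.lt_pow_self hp.one_lt
  have h1 : p ^ a * finrank E (CyclotomicField (p ^ r) k) ≤ p ^ r := by
    rw [← hE, hN]
    exact hKr
  have h2 : p ^ r ≤ p ^ c * (finrank E (CyclotomicField (p ^ r) k) *
      (p ^ j * finrank ℚ k)) := by
    refine hloc.trans (Nat.mul_le_mul_left _ ?_)
    rw [← hd1, ← hd2]
    exact Nat.mul_le_mul hD1 (Nat.mul_le_mul_left _ hkv)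
  have h3 : p ^ a * finrank E (CyclotomicField (p ^ r) k)
      ≤ (p ^ c * (p ^ j * finrank ℚ k)) * finrank E (CyclotomicField (p ^ r) k) := by
    refine (h1.trans h2).trans (le_of_eq ?_)
    ring
  have h4 : p ^ a ≤ p ^ c * (p ^ j * finrank ℚ k) := Nat.le_of_mul_le_mul_right h3 hNpos
  have h5 : p ^ a < p ^ (c + finrank ℚ k + j) := by
    calc p ^ a ≤ p ^ c * (p ^ j * finrank ℚ k) := h4
      _ < p ^ c * (p ^ j * p ^ finrank ℚ k) :=
          Nat.mul_lt_mul_of_pos_left (Nat.mul_lt_mul_of_pos_left hdlt (pow_pos hp.pos j))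
            (pow_pos hp.pos c)
      _ = p ^ (c + finrank ℚ k + j) := by ring
  have h6 : a < c + finrank ℚ k + j := (Nat.pow_lt_pow_iff_right hp.one_lt).1 h5
  rw [← pow_add]
  exact pow_dvd_pow p h6.le

end Fermat.Agent.S55.H32
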