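/-
S55 (Poitou–Tate), package C8, leaf Z2 in consumer shapes — helper32.

General forms of `exists_bound_decompGroup` (growth of the local degrees in the cyclotomic
`ℤ_p`-tower of a number field `k`), for an arbitrary presentation of the layer:

* `exists_bound_decompGroup_of_algHom` : `E` any field with a `k`-embedding into any
  `p ^ r`-th cyclotomic extension `K` of `k` (as types);
* `exists_bound_decompGroup_in` : `E` an intermediate field of any `Ω / k` contained in `k(ζ)`,
  `ζ ∈ Ω` a primitive `p ^ r`-th root of unity (the shape of helper15's `exists_cyclic_layer_in`);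
* `exists_cyclic_layer_pow_dvd_locDeg` : **Z1 + Z2 combined** — for a finite set `T` of primes
  and `N : ℕ` there are `a` and `r₀` such that for every `r ≥ r₀` and every `Ω ∋ ζ_{p^r}` there is
  a cyclic Galois layer `E / k` of degree `p ^ a` inside `k(ζ) ⊆ Ω` all of whose local degrees
  `[E_w : k_v]` (helper88's `FinPlace.locDeg`) at the places `w` above `T` are divisible by
  `p ^ N`.
-/
import Mathlib
import Fermat.Agent.S55.H20.Decomp
import Fermat.Agent.S55.H88.TowerData
import Fermat.Agent.S55.H15.CycloLayer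
import Fermat.Agent.S55.H32.CycLocal
import Fermat.Agent.S55.H32.CycGrowth

set_option autoImplicit false
set_option linter.style.haveILetI false

open scoped IntermediateField
open Module

namespace Fermat.Agent.S55.H32

open Fermat.Agent.S55 Fermat.Agent.S55.H88

attribute [local instance] factOfPrimes

/-- `[K : k] ≤ n` for an `n`-th cyclotomic extension `K / k`. -/
theorem finrank_le_of_isCyclotomicExtension (n : ℕ) [NeZero n] (k K : Type*) [Field k] [Field K]
    [Algebra k K] [IsCyclotomicExtension {n} k K] : finrank k K ≤ n := by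
  have hζ : IsPrimitiveRoot (IsCyclotomicExtension.zeta n k K) n :=
    IsCyclotomicExtension.zeta_spec _ k _
  haveI : IsGalois k K := IsCyclotomicExtension.isGalois {n} k _
  haveI : FiniteDimensional k K := IsCyclotomicExtension.finiteDimensional {n} k _
  have h := Subgroup.card_dvd_of_injective (hζ.autToPow k) (hζ.autToPow_injective k)
  rw [IsGalois.card_aut_eq_finrank, Nat.card_eq_fintype_card, ZMod.card_units_eq_totient] at h
  exact (Nat.le_of_dvd (Nat.totient_pos.2 (NeZero.pos n)) h).trans (Nat.totient_le n)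

/-- A field with a `k`-embedding into a `p ^ r`-th cyclotomic extension of `k` (`p` odd) is
Galois over `k`. -/
theorem isGalois_of_algHom_isCyclotomicExtension (p : ℕ) [Fact p.Prime] (hp2 : p ≠ 2) (r : ℕ)
    (k E K : Type*) [Field k] [Field E] [Field K] [Algebra k E] [Algebra k K]
    [IsCyclotomicExtension {p ^ r} k K] (ι : E →ₐ[k] K) : IsGalois k E := by
  have hp : p.Prime := Fact.out
  haveI : NeZero (p ^ r) := ⟨pow_ne_zero _ hp.ne_zero⟩
  haveI : IsGalois k K := IsCyclotomicExtension.isGalois {p ^ r} k _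
  haveI : FiniteDimensional k K := IsCyclotomicExtension.finiteDimensional {p ^ r} k _
  haveI hcyc : IsCyclic (K ≃ₐ[k] K) :=
    H15.isCyclic_aut_of_isCyclotomicExtension p hp hp2 r k K
  haveI hN : (ι.fieldRange.fixingSubgroup).Normal := Subgroup.normal_of_isMulCommutative _
  have h := IsGalois.of_fixedField_normal_subgroup ι.fieldRange.fixingSubgroup
  rw [IsGalois.fixedField_fixingSubgroup ι.fieldRange] at h
  let e : E ≃ₐ[k] ι.fieldRange :=
    AlgEquiv.ofBijective (ι.codRestrict ι.fieldRange.toSubalgebra (fun x => ⟨x, rfl⟩))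
      ⟨fun x y h => ι.injective (congrArg Subtype.val h),
        fun y => by
          obtain ⟨x, hx⟩ := y.2
          exact ⟨x, Subtype.ext hx⟩⟩
  exact IsGalois.of_algEquiv e.symm

/-- **Leaf Z2, general presentation.**  There is a constant `c` (depending on `k`, `p`, `q`
only) such that for every field `E` with a `k`-embedding into a `p ^ r`-th cyclotomic extension
`K` of `k`, of degree `[E : k] = p ^ a`, and every embedding `τ` of `E` into `PadicAlgCl q`:
`p ^ a ∣ p ^ c * #D_τ(E/k)`. -/
theorem exists_bound_decompGroup_of_algHom (p q : ℕ) [Fact p.Prime] [Fact q.Prime]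
    (hp2 : p ≠ 2) (k : Type) [Field k] [NumberField k] :
    ∃ c : ℕ, ∀ (a r : ℕ) (E K : Type) [Field E] [Field K] [Algebra k E] [Algebra k K]
      [IsCyclotomicExtension {p ^ r} k K] (_ι : E →ₐ[k] K),
      finrank k E = p ^ a → ∀ τ : E →+* PadicAlgCl q,
        p ^ a ∣ p ^ c * Nat.card (decompGroup q k τ) := by
  have hp : p.Prime := Fact.out
  obtain ⟨c, hc⟩ := exists_bound_of_primitiveRoot p q hp2
  refine ⟨c + finrank ℚ k, ?_⟩
  intro a r E K _ _ _ _ _ ι hE τ
  haveI : NeZero (p ^ r) := ⟨pow_ne_zero _ hp.ne_zero⟩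
  haveI : IsGalois k K := IsCyclotomicExtension.isGalois {p ^ r} k _
  haveI : FiniteDimensional k K := IsCyclotomicExtension.finiteDimensional {p ^ r} k _
  haveI hEgal : IsGalois k E := isGalois_of_algHom_isCyclotomicExtension p hp2 r k E K ι
  letI : Algebra E K := ι.toRingHom.toAlgebra
  haveI : IsScalarTower k E K := IsScalarTower.of_algebraMap_eq (fun x => (ι.commutes x).symm)
  haveI : FiniteDimensional k E :=
    Module.finite_of_finrank_pos (by rw [hE]; exact pow_pos hp.pos a)
  haveI : NumberField E := NumberField.of_module_finite k E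
  haveI : NumberField K := NumberField.of_module_finite k K
  haveI : FiniteDimensional E K := Module.Finite.of_restrictScalars_finite k E K
  haveI : IsGalois E K := IsGalois.tower_top_of_isGalois k E K
  -- extend `τ` to `K`
  obtain ⟨τ', hτ'⟩ := exists_extend (K := K) q τ
  have hζ : IsPrimitiveRoot (IsCyclotomicExtension.zeta (p ^ r) k K) (p ^ r) :=
    IsCyclotomicExtension.zeta_spec _ k _
  have hmem : τ' (IsCyclotomicExtension.zeta (p ^ r) k K) ∈ locField q τ' :=
    IntermediateField.subset_adjoin ℚ_[q] (Set.range τ') ⟨_, rfl⟩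
  have hprim : IsPrimitiveRoot (⟨_, hmem⟩ : locField q τ') (p ^ r) :=
    IsPrimitiveRoot.of_map_of_injective (f := algebraMap (locField q τ') (PadicAlgCl q))
      (hζ.map_of_injective τ'.injective) (algebraMap (locField q τ') (PadicAlgCl q)).injective
  have hloc := hc r (locField q τ') ⟨_, hmem⟩ hprim
  -- the two local degree formulas
  have hd1 := H20.localDegree q E τ'
  rw [hτ'] at hd1
  have hd2 := H20.localDegree q k τ
  have hkv := finrank_locField_le q k (τ.comp (algebraMap k E))
  -- sizes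
  have hD1 : Nat.card (decompGroup q E τ') ≤ finrank E K := by
    rw [← IsGalois.card_aut_eq_finrank]
    exact Nat.le_of_dvd Nat.card_pos (Subgroup.card_subgroup_dvd_card _)
  have hN : finrank k E * finrank E K = finrank k K := Module.finrank_mul_finrank k E _
  have hKr := finrank_le_of_isCyclotomicExtension (p ^ r) k K
  have hDdvd : Nat.card (decompGroup q k τ) ∣ p ^ a := by
    rw [← hE, ← IsGalois.card_aut_eq_finrank]
    exact Subgroup.card_subgroup_dvd_card _
  obtain ⟨j, -, hj⟩ := (Nat.dvd_prime_pow hp).1 hDdvd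
  rw [hj]
  rw [hj] at hd2
  -- arithmetic
  have hNpos : 0 < finrank E K := Module.finrank_pos
  have hdlt : finrank ℚ k < p ^ finrank ℚ k := Nat.lt_pow_self hp.one_lt
  have h1 : p ^ a * finrank E K ≤ p ^ r := by
    rw [← hE, hN]
    exact hKr
  have h2 : p ^ r ≤ p ^ c * (finrank E K * (p ^ j * finrank ℚ k)) := by
    refine hloc.trans (Nat.mul_le_mul_left _ ?_)
    rw [← hd1, ← hd2]
    exact Nat.mul_le_mul hD1 (Nat.mul_le_mul_left _ hkv)
  have h3 : p ^ a * finrank E K ≤ (p ^ c * (p ^ j * finrank ℚ k)) * finrank E K := by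
    refine (h1.trans h2).trans (le_of_eq ?_)
    ring
  have h4 : p ^ a ≤ p ^ c * (p ^ j * finrank ℚ k) := Nat.le_of_mul_le_mul_right h3 hNpos
  have h5 : p ^ a < p ^ (c + finrank ℚ k + j) := by
    calc p ^ a ≤ p ^ c * (p ^ j * finrank ℚ k) := h4
      _ < p ^ c * (p ^ j * p ^ finrank ℚ k) :=
          Nat.mul_lt_mul_of_pos_left (Nat.mul_lt_mul_of_pos_left hdlt (pow_pos hp.pos j))
            (pow_pos hp.pos c)
      _ = p ^ (c + finrank ℚ k + j) := by ring
  have h6 : a < c + finrank ℚ k + j := (Nat.pow_lt_pow_iff_right hp.one_lt).1 h5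
  rw [← pow_add]
  exact pow_dvd_pow p h6.le

/-- **Leaf Z2 inside an overfield.**  The same constant works for every intermediate field `E`
of any extension `Ω / k` which is contained in `k(ζ)`, `ζ ∈ Ω` a primitive `p ^ r`-th root of
unity, with `[E : k] = p ^ a`. -/
theorem exists_bound_decompGroup_in (p q : ℕ) [Fact p.Prime] [Fact q.Prime] (hp2 : p ≠ 2)
    (k : Type) [Field k] [NumberField k] :
    ∃ c : ℕ, ∀ (a r : ℕ) (Ω : Type) [Field Ω] [Algebra k Ω] (ζ : Ω),
      IsPrimitiveRoot ζ (p ^ r) → ∀ E : IntermediateField k Ω, E ≤ k⟮ζ⟯ →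
      finrank k E = p ^ a → ∀ τ : E →+* PadicAlgCl q,
        p ^ a ∣ p ^ c * Nat.card (decompGroup q k τ) := by
  have hp : p.Prime := Fact.out
  obtain ⟨c, hc⟩ := exists_bound_decompGroup_of_algHom p q hp2 k
  refine ⟨c, ?_⟩
  intro a r Ω _ _ ζ hζ E hEζ hE τ
  have hpos : 0 < p ^ r := pow_pos hp.pos r
  haveI : NeZero (p ^ r) := ⟨hpos.ne'⟩
  have halg : IsAlgebraic k ζ := ((hζ.isIntegral hpos).tower_top (A := k)).isAlgebraic
  haveI : IsCyclotomicExtension {p ^ r} k k⟮ζ⟯ := by
    change IsCyclotomicExtension {p ^ r} k (IntermediateField.adjoin k {ζ}).toSubalgebra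
    rw [IntermediateField.adjoin_simple_toSubalgebra_of_isAlgebraic halg]
    exact hζ.adjoin_isCyclotomicExtension k
  exact hc a r E k⟮ζ⟯ (IntermediateField.inclusion hEζ) hE τ

/-- **Z1 + Z2 combined, consumer form.**  For an odd prime `p`, a number field `k`, a finite set
`T` of primes and `N : ℕ` there are `a` and `r₀` such that, for every `r ≥ r₀` and every
extension `Ω / k` with a primitive `p ^ r`-th root of unity `ζ`, there is an intermediate field
`E ≤ k(ζ)`, Galois and cyclic of degree `p ^ a` over `k`, such that `p ^ N` divides the local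
degree `[E_w : k_v]` at every finite place `w` of `E` above a prime of `T`. -/
theorem exists_cyclic_layer_pow_dvd_locDeg (p : ℕ) [Fact p.Prime] (hp2 : p ≠ 2) (k : Type)
    [Field k] [NumberField k] (T : Finset Nat.Primes) (N : ℕ) :
    ∃ a r₀ : ℕ, ∀ r, r₀ ≤ r → ∀ (Ω : Type) [Field Ω] [Algebra k Ω] (ζ : Ω),
      IsPrimitiveRoot ζ (p ^ r) →
      ∃ E : IntermediateField k Ω, E ≤ k⟮ζ⟯ ∧ IsGalois k E ∧ IsCyclic (E ≃ₐ[k] E) ∧
        finrank k E = p ^ a ∧ ∀ w : FinPlace E, w.1 ∈ T → p ^ N ∣ w.locDeg k := by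
  classical
  have hp : p.Prime := Fact.out
  have hex : ∀ q : Nat.Primes, ∃ c : ℕ, ∀ (a r : ℕ) (Ω : Type) [Field Ω] [Algebra k Ω] (ζ : Ω),
      IsPrimitiveRoot ζ (p ^ r) → ∀ E : IntermediateField k Ω, E ≤ k⟮ζ⟯ →
      finrank k E = p ^ a → ∀ τ : E →+* PadicAlgCl (q : ℕ),
        p ^ a ∣ p ^ c * Nat.card (decompGroup (q : ℕ) k τ) := fun q =>
    exists_bound_decompGroup_in p (q : ℕ) hp2 k
  choose c hc using hex
  refine ⟨N + ∑ q ∈ T, c q, H15.cycloLevel p k (N + ∑ q ∈ T, c q), ?_⟩
  intro r hr Ω _ _ ζ hζ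
  obtain ⟨E, hEζ, hgal, hcyc, hdeg⟩ :=
    H15.exists_cyclic_layer_in p hp hp2 k (N + ∑ q ∈ T, c q) r hr Ω ζ hζ
  refine ⟨E, hEζ, hgal, hcyc, hdeg, fun w hw => ?_⟩
  haveI : FiniteDimensional k E :=
    Module.finite_of_finrank_pos (by rw [hdeg]; exact pow_pos hp.pos _)
  have h1 := hc w.1 _ r Ω ζ hζ E hEζ hdeg w.emb
  have hDdvd : Nat.card (decompGroup (w.1 : ℕ) k w.emb) ∣ p ^ (N + ∑ q ∈ T, c q) := by
    rw [← hdeg, ← IsGalois.card_aut_eq_finrank]
    exact Subgroup.card_subgroup_dvd_card _
  obtain ⟨j, -, hj⟩ := (Nat.dvd_prime_pow hp).1 hDdvd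
  have h2 : w.locDeg k = Nat.card (decompGroup (w.1 : ℕ) k w.emb) :=
    (H20.card_decompGroup (w.1 : ℕ) k w.emb).symm
  rw [h2, hj]
  rw [hj, ← pow_add] at h1
  have h3 : N + ∑ q ∈ T, c q ≤ c w.1 + j := (Nat.pow_dvd_pow_iff_le_right hp.one_lt).1 h1
  have h4 : c w.1 ≤ ∑ q ∈ T, c q := Finset.single_le_sum (fun _ _ => Nat.zero_le _) hw
  exact pow_dvd_pow p (by omega)

end Fermat.Agent.S55.H32
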