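/-
S55 (Poitou–Tate), package C8, leaves Z1 + Z2 — helper32.  Consumer forms, continued.

`exists_cyclic_layer_pow_dvd_card_decompGroup` : the cyclic layer `E / k` of the cyclotomic
`ℤ_p`-tower with `p ^ N ∣ #D_τ(E/k)` for EVERY embedding `τ : E →+* PadicAlgCl q`, `q ∈ T`.

`exists_cyclic_layer_pow_dvd_locDegAt` : the same layer, with the local degree at the CHOSEN
place `v.ext E` above each finite place `v` of `k` over `T` — this is `H29.locDegAt k E v`
(unfolded: `finrank (locBase v.1 k (v.ext E)) (locExt v.1 k (v.ext E))`), the degree function of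
`(layerOf k E).Ex (locDegAt k E)` in `H29/C8Ex.lean`.
-/
import Mathlib
import Fermat.Agent.S55.H32.CycGrowthGen

set_option autoImplicit false
set_option linter.style.haveILetI false

open scoped IntermediateField
open Module

namespace Fermat.Agent.S55.H32

open Fermat.Agent.S55 Fermat.Agent.S55.H88

attribute [local instance] factOfPrimes

/-- **Z1 + Z2 combined, embedding form.**  For an odd prime `p`, a number field `k`, a finite
set `T` of primes and `N : ℕ` there are `a` and `r₀` such that, for every `r ≥ r₀` and every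
extension `Ω / k` with a primitive `p ^ r`-th root of unity `ζ`, there is an intermediate field
`E ≤ k(ζ)`, Galois and cyclic of degree `p ^ a` over `k`, such that `p ^ N` divides the order of
the decomposition group of `E / k` at every embedding of `E` into `PadicAlgCl q`, `q ∈ T`. -/
theorem exists_cyclic_layer_pow_dvd_card_decompGroup (p : ℕ) [Fact p.Prime] (hp2 : p ≠ 2)
    (k : Type) [Field k] [NumberField k] (T : Finset Nat.Primes) (N : ℕ) :
    ∃ a r₀ : ℕ, ∀ r, r₀ ≤ r → ∀ (Ω : Type) [Field Ω] [Algebra k Ω] (ζ : Ω),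
      IsPrimitiveRoot ζ (p ^ r) →
      ∃ E : IntermediateField k Ω, E ≤ k⟮ζ⟯ ∧ IsGalois k E ∧ IsCyclic (E ≃ₐ[k] E) ∧
        finrank k E = p ^ a ∧ ∀ q : Nat.Primes, q ∈ T → ∀ τ : E →+* PadicAlgCl (q : ℕ),
          p ^ N ∣ Nat.card (decompGroup (q : ℕ) k τ) := by
  classical
  have hp : p.Prime := Fact.out
  have hex : ∀ q : Nat.Primes, ∃ c : ℕ, ∀ (a r : ℕ) (Ω : Type) [Field Ω] [Algebra k Ω] (ζ : Ω),
      IsPrimitiveRoot ζ (p ^ r) → ∀ E : IntermediateField k Ω, E ≤ k⟮ζ⟯ →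
      finrank k E = p ^ a → ∀ τ : E →+* PadicAlgCl (q : ℕ),
        p ^ a ∣ p ^ c * Nat.card (decompGroup (q : ℕ) k τ) := fun q =>
    exists_bound_decompGroup_in p (q : ℕ) hp2 k
  choose c hc using hex
  refine ⟨N + ∑ q ∈ T, c q, H15.cycloLevel p k (N + ∑ q ∈ T, c q), ?_⟩
  intro r hr Ω _ _ ζ hζ
  obtain ⟨E, hEζ, hgal, hcyc, hdeg⟩ :=
    H15.exists_cyclic_layer_in p hp hp2 k (N + ∑ q ∈ T, c q) r hr Ω ζ hζ
  refine ⟨E, hEζ, hgal, hcyc, hdeg, fun q hq τ => ?_⟩
  haveI : FiniteDimensional k E :=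
    Module.finite_of_finrank_pos (by rw [hdeg]; exact pow_pos hp.pos _)
  have h1 := hc q _ r Ω ζ hζ E hEζ hdeg τ
  have hDdvd : Nat.card (decompGroup (q : ℕ) k τ) ∣ p ^ (N + ∑ q ∈ T, c q) := by
    rw [← hdeg, ← IsGalois.card_aut_eq_finrank]
    exact Subgroup.card_subgroup_dvd_card _
  obtain ⟨j, -, hj⟩ := (Nat.dvd_prime_pow hp).1 hDdvd
  rw [hj]
  rw [hj, ← pow_add] at h1
  have h3 : N + ∑ q ∈ T, c q ≤ c q + j := (Nat.pow_dvd_pow_iff_le_right hp.one_lt).1 h1
  have h4 : c q ≤ ∑ q ∈ T, c q := Finset.single_le_sum (fun _ _ => Nat.zero_le _) hq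
  exact pow_dvd_pow p (by omega)

/-- **Z1 + Z2 combined, chosen-place form** (the degree function `H29.locDegAt k E` of
`H29/C8Ex.lean`, unfolded): `p ^ N` divides the local degree of `E / k` at the chosen place
`v.ext E` above every finite place `v` of `k` over a prime of `T`. -/
theorem exists_cyclic_layer_pow_dvd_locDegAt (p : ℕ) [Fact p.Prime] (hp2 : p ≠ 2)
    (k : Type) [Field k] [NumberField k] (T : Finset Nat.Primes) (N : ℕ) :
    ∃ a r₀ : ℕ, ∀ r, r₀ ≤ r → ∀ (Ω : Type) [Field Ω] [Algebra k Ω] (ζ : Ω),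
      IsPrimitiveRoot ζ (p ^ r) →
      ∃ (E : IntermediateField k Ω) (_ : E ≤ k⟮ζ⟯) (_ : IsGalois k E),
        IsCyclic (E ≃ₐ[k] E) ∧ finrank k E = p ^ a ∧ ∀ v : FinPlace k, v.1 ∈ T →
          p ^ N ∣ finrank (locBase (v.1 : ℕ) k (v.ext E)) (locExt (v.1 : ℕ) k (v.ext E)) := by
  have hp : p.Prime := Fact.out
  obtain ⟨a, r₀, h⟩ := exists_cyclic_layer_pow_dvd_card_decompGroup p hp2 k T N
  refine ⟨a, r₀, fun r hr Ω _ _ ζ hζ => ?_⟩
  obtain ⟨E, hEζ, hgal, hcyc, hdeg, hdvd⟩ := h r hr Ω ζ hζ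
  refine ⟨E, hEζ, hgal, hcyc, hdeg, fun v hv => ?_⟩
  haveI : FiniteDimensional k E :=
    Module.finite_of_finrank_pos (by rw [hdeg]; exact pow_pos hp.pos _)
  have h2 : finrank (locBase (v.1 : ℕ) k (v.ext E)) (locExt (v.1 : ℕ) k (v.ext E))
      = Nat.card (decompGroup (v.1 : ℕ) k (v.ext E)) :=
    (H20.card_decompGroup (v.1 : ℕ) k (v.ext E)).symm
  rw [h2]
  exact hdvd v.1 hv (v.ext E)

end Fermat.Agent.S55.H32
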