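/-
S55 (Poitou–Tate), package C8, leaves Z1 + Z2 in the Prelude (`ℚ̄`) model — helper32.

The layers of the cyclotomic `ℤ_p`-tower of a number field `k ⊆ ℚ̄` unramified outside `S ∋ p`,
with their local degrees (consumer form for C9b: "choose the layer inside `ℚ_S`"):

* `exists_cyclic_layer_unramified_pow_dvd` : for a finite set `T` of primes and `N : ℕ` there is
  `E ⊇ k` inside `ℚ̄`, unramified outside `S`, Galois and cyclic of `p`-power degree over `k`,
  such that `p ^ N` divides the order of the decomposition group of `E / k` at EVERY embedding of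
  `E` into `PadicAlgCl q`, `q ∈ T`;
* `exists_cyclic_layer_unramified_pow_dvd_locDegAt` : the same with the local degree at the
  chosen place above each finite place of `k` over `T` (`H29.locDegAt`, unfolded) — exactly the
  degree function of `H29.CyclicExStatement`.

Built on helper15's `H15.exists_cyclic_layer_qbar` (Z1) and `exists_bound_decompGroup_in` (Z2).
-/
import Mathlib
import Fermat.Agent.S55.H15.CycloLayerQbar
import Fermat.Agent.S55.H32.CycGrowthAt

set_option autoImplicit false
set_option linter.style.haveILetI false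

open scoped IntermediateField
open Module IntermediateField

namespace Fermat.Agent.S55.H32

open Fermat.Agent.S55 Fermat.Agent.S55.H88

attribute [local instance] factOfPrimes

local notation "Qb" => AlgebraicClosure ℚ

/-- **Z1 + Z2 in the Prelude model, embedding form.** -/
theorem exists_cyclic_layer_unramified_pow_dvd (p : ℕ) [Fact p.Prime] (hp2 : p ≠ 2)
    {S : Finset Nat.Primes} (hpS : ExtCitation.pPrime p ∈ S)
    (k : IntermediateField ℚ Qb) (hk : k.IsUnramifiedOutside S) (T : Finset Nat.Primes)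
    (N : ℕ) :
    ∃ (a : ℕ) (E : IntermediateField ℚ Qb) (h : k ≤ E), E.IsUnramifiedOutside S ∧
      IsGalois k (extendScalars h) ∧ IsCyclic (extendScalars h ≃ₐ[k] extendScalars h) ∧
      finrank k (extendScalars h) = p ^ a ∧
      ∀ q : Nat.Primes, q ∈ T → ∀ τ : extendScalars h →+* PadicAlgCl (q : ℕ),
        p ^ N ∣ Nat.card (decompGroup (q : ℕ) k τ) := by
  classical
  have hp : p.Prime := Fact.out
  haveI := hk.1
  haveI : NumberField k := { to_charZero := inferInstance, to_finiteDimensional := inferInstance }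
  have hex : ∀ q : Nat.Primes, ∃ c : ℕ, ∀ (a r : ℕ) (Ω : Type) [Field Ω] [Algebra k Ω] (ζ : Ω),
      IsPrimitiveRoot ζ (p ^ r) → ∀ E : IntermediateField k Ω, E ≤ (↥k)⟮ζ⟯ →
      finrank k E = p ^ a → ∀ τ : E →+* PadicAlgCl (q : ℕ),
        p ^ a ∣ p ^ c * Nat.card (decompGroup (q : ℕ) k τ) := fun q =>
    exists_bound_decompGroup_in p (q : ℕ) hp2 k
  choose c hc using hex
  obtain ⟨r, ζ, E, h, hr, hζ, hE, hgal, hcyc, hdeg⟩ :=
    H15.exists_cyclic_layer_qbar p hp hp2 k (N + ∑ q ∈ T, c q)
  refine ⟨N + ∑ q ∈ T, c q, E, h, IntermediateField.IsUnramifiedOutside.of_le hE ?_, hgal, hcyc,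
    hdeg, fun q hq τ => ?_⟩
  · have h1 : ζ ^ (p ^ r) = 1 := hζ.pow_eq_one
    refine H87.isUnramifiedOutside_sup_adjoin_of_unit (n := p ^ r)
      (pow_ne_zero _ hp.ne_zero) (H87.coprime_pow_of_mem hpS r) hk ?_ ?_
    · rw [h1]; exact k.one_mem
    · intro q _ A _
      rw [h1]
      exact ⟨A.one_mem, by rw [inv_one]; exact A.one_mem⟩
  · have hle : extendScalars h ≤ (↥k)⟮ζ⟯ := by
      intro x hx
      have hx' : x ∈ E := hx
      have h2 := hE hx'
      rw [← IntermediateField.restrictScalars_adjoin_eq_sup] at h2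
      exact h2
    haveI : FiniteDimensional k (extendScalars h) :=
      Module.finite_of_finrank_pos (by rw [hdeg]; exact pow_pos hp.pos _)
    have h1 := hc q _ r Qb ζ hζ (extendScalars h) hle hdeg τ
    have hDdvd : Nat.card (decompGroup (q : ℕ) k τ) ∣ p ^ (N + ∑ q ∈ T, c q) := by
      rw [← hdeg, ← IsGalois.card_aut_eq_finrank]
      exact Subgroup.card_subgroup_dvd_card _
    obtain ⟨j, -, hj⟩ := (Nat.dvd_prime_pow hp).1 hDdvd
    rw [hj]
    rw [hj, ← pow_add] at h1
    have h3 : N + ∑ q ∈ T, c q ≤ c q + j := (Nat.pow_dvd_pow_iff_le_right hp.one_lt).1 h1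
    have h4 : c q ≤ ∑ q ∈ T, c q := Finset.single_le_sum (fun _ _ => Nat.zero_le _) hq
    exact pow_dvd_pow p (by omega)

/-- **Z1 + Z2 in the Prelude model, chosen-place form**: `p ^ N` divides the local degree
`H29.locDegAt k E v` (unfolded) of the layer at every finite place `v` of `k` above `T`. -/
theorem exists_cyclic_layer_unramified_pow_dvd_locDegAt (p : ℕ) [Fact p.Prime] (hp2 : p ≠ 2)
    {S : Finset Nat.Primes} (hpS : ExtCitation.pPrime p ∈ S)
    (k : IntermediateField ℚ Qb) (hk : k.IsUnramifiedOutside S) (T : Finset Nat.Primes)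
    (N : ℕ) :
    ∃ (a : ℕ) (E : IntermediateField ℚ Qb) (h : k ≤ E) (_ : IsGalois k (extendScalars h)),
      E.IsUnramifiedOutside S ∧ IsCyclic (extendScalars h ≃ₐ[k] extendScalars h) ∧
      finrank k (extendScalars h) = p ^ a ∧
      ∀ v : FinPlace k, v.1 ∈ T →
        p ^ N ∣ finrank (locBase (v.1 : ℕ) k (v.ext (extendScalars h)))
          (locExt (v.1 : ℕ) k (v.ext (extendScalars h))) := by
  have hp : p.Prime := Fact.out
  obtain ⟨a, E, h, hunr, hgal, hcyc, hdeg, hdvd⟩ :=
    exists_cyclic_layer_unramified_pow_dvd p hp2 hpS k hk T N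
  refine ⟨a, E, h, hgal, hunr, hcyc, hdeg, fun v hv => ?_⟩
  haveI : FiniteDimensional k (extendScalars h) :=
    Module.finite_of_finrank_pos (by rw [hdeg]; exact pow_pos hp.pos _)
  have h2 : finrank (locBase (v.1 : ℕ) k (v.ext (extendScalars h)))
      (locExt (v.1 : ℕ) k (v.ext (extendScalars h)))
      = Nat.card (decompGroup (v.1 : ℕ) k (v.ext (extendScalars h))) :=
    (H20.card_decompGroup (v.1 : ℕ) k (v.ext (extendScalars h))).symm
  rw [h2]
  exact hdvd v.1 hv (v.ext (extendScalars h))

end Fermat.Agent.S55.H32
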