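/-
Program C (S55), package C9b: the leaf `H70.CycTowerStatement p S` of `H70/GSFinal.lean`
(cyclic layers of `p`-power degree inside `ℚ_S` with large local degrees at finitely many
given finite places), for `p` odd and `p ∈ S`.

It is `H32.exists_cyclic_layer_unramified_pow_dvd_locDegAt` (the layers of the cyclotomic
`ℤ_p`-tower over `F`; Z1 + Z2) repackaged as a `H74.QSLayer S F`: the layer `E ⊇ F` given there
as an intermediate field of `ℚ̄/ℚ` is used through `IntermediateField.extendScalars`.
-/
import Fermat.Agent.S55.H70.GSFinal
import Fermat.Agent.S55.H32.CycGrowthQbar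

set_option autoImplicit false

noncomputable section

namespace Fermat.Agent.S55.H32

open Fermat.Agent.S55 IntermediateField

local notation "Qb" => AlgebraicClosure ℚ

/-- **Leaf (CYC-TOWER)** of `H70/GSFinal.lean`: for `p` odd and `p ∈ S`, every finite
`F ⊆ ℚ_S` has cyclic layers of `p`-power degree inside `ℚ_S` whose local degrees at finitely
many given finite places of `F` are divisible by a given power of `p`. -/
theorem cycTowerStatement {p : ℕ} [Fact p.Prime] (hp2 : p ≠ 2) {S : Finset Nat.Primes}
    (hpS : ExtCitation.pPrime p ∈ S) : H70.CycTowerStatement p S := by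
  intro F hF _ W c
  classical
  obtain ⟨a, E, h, hgal, hunr, hcyc, hdeg, hdvd⟩ :=
    exists_cyclic_layer_unramified_pow_dvd_locDegAt p hp2 hpS F hF (W.image (·.1)) c
  refine ⟨⟨extendScalars h, hgal.to_normal, ?_⟩, hcyc, ⟨a, hdeg⟩, fun v hv => ?_⟩
  · have e : (extendScalars h).restrictScalars ℚ = E := by
      ext x
      exact Iff.rfl
    rw [e]
    exact hunr
  · exact hdvd v (Finset.mem_image_of_mem _ hv)

end Fermat.Agent.S55.H32
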