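/-
Program C (S55), package C8 (B4), leaf (J-COMPAT), helper32: the local invariants of classes with
coefficients in ANY Galois module carrying evaluation maps to the local units (ideles, `S`-ideles,
`Kˣ` itself) are compatible with inflation and restriction.

Generic form (`A : Rep ℤ Gal(K/k)`, `u : A → K_wˣ` a morphism of representations of
`Gal(K_w/k_v)` along `H88.locGalToGlobal`):

* `inv_infl_gen` (J6): `inv ∘ loc_{τ''} ∘ map(restrictNormalHom, f) = inv ∘ loc_{τ'' ∘ algebraMap}`
  for `f : A → A'` compatible with the evaluations (from C3's `H66.LeafInvInfl`);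
* `inv_res_gen` (J5): `inv_E ∘ loc_E ∘ map(subGal, s) = [E_w : k_v] • inv_k ∘ loc_k`
  (from C3's `H66.LeafInvRes` and the transport theorem `H20.inv_transH2`).

Instances for the ideles of `H29/C8Idele.lean`: `jinvAt_ideleInfl`, `jinvAt_ideleSub`, and the
layer forms `jinv_ideleInfl`, `jinv_ideleSub` at the chosen places (under the independence of
`H29.jinvAt` of the embedding above a given place of the base).

The proofs follow helper83's `H83.linvAt_infl` / `H83.linvAt_res` (the case `A = Kˣ`).
-/
import Mathlib
import Fermat.Agent.S55.H83.SubTowerCompat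
import Fermat.Agent.S55.H29.C8Idele
import Fermat.Agent.S55.H69.InvResFinal

set_option autoImplicit false
set_option linter.style.haveILetI false
set_option linter.unusedSectionVars false

open CategoryTheory

noncomputable section

namespace Fermat.Agent.S55.H32

open Fermat.Agent.S55 Fermat.Agent.S55.H88 Fermat.Agent.S55.H66 Fermat.Agent.S55.H20
  Fermat.Agent.S55.H83

variable (q : ℕ) [Fact q.Prime]

/-- Morphisms of `ℤ`-representations agree if they agree pointwise (stated so that no
`ℤ`-module structure has to be found by instance search). -/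
theorem repHom_ext_of_forall {G : Type} [Group G] {A B : Rep.{0, 0, 0} ℤ G} {f g : A ⟶ B}
    (h : ∀ a : A, f.hom a = g.hom a) : f = g := by
  apply Rep.hom_ext
  apply (config := { synthAssignedInstances := false }) Representation.IntertwiningMap.ext
  apply (config := { synthAssignedInstances := false }) LinearMap.ext
  exact h

/-! ### Presentations of the local extension, generic coefficients -/

section Pres

variable (k : Type) {K : Type} [Field k] [Field K] [Algebra k K] [Normal k K]
  (τ : K →+* PadicAlgCl q) {A : Rep.{0, 0, 0} ℤ (K ≃ₐ[k] K)}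
  (u : Rep.res (locGalToGlobal q k τ) A ⟶
    Rep.ofAlgebraAutOnUnits (locBase q k τ) (locExt q k τ))

/-- Every presentation `(B, M)` of the local extension at `τ` carries the structure of
`H88.LayerDefs` together with the evaluation map `u`. -/
theorem exists_pres_gen (B : IntermediateField ℚ_[q] (PadicAlgCl q)) (hB : B = locBase q k τ)
    (M : IntermediateField B (PadicAlgCl q)) (hM : ∀ z, z ∈ M ↔ z ∈ locField q τ) :
    Normal B M ∧ ∃ (ψ : (M ≃ₐ[B] M) →* (K ≃ₐ[k] K)) (e : K →+* M)
      (u₁ : Rep.res ψ A ⟶ Rep.ofAlgebraAutOnUnits B M),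
      (∀ x, ((e x : M) : PadicAlgCl q) = τ x) ∧ (∀ (α : M ≃ₐ[B] M) (x : K), α (e x) = e (ψ α x)) ∧
      ∀ a : A, (((Additive.toMul (u₁.hom a) : Mˣ) : M) : PadicAlgCl q)
        = (((Additive.toMul (u.hom a) : (locExt q k τ)ˣ) : locExt q k τ) : PadicAlgCl q) := by
  subst hB
  obtain rfl : M = locExt q k τ := SetLike.ext hM
  exact ⟨inferInstance, locGalToGlobal q k τ, locExtEmb q k τ, u,
    fun _ => rfl, locGalToGlobal_spec q k τ, fun _ => rfl⟩

/-- The local invariant computed in any presentation `(B, M, ψ, e, u₁)` is the one computed in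
the standard presentation. -/
theorem inv_eq_of_pres_gen (B : IntermediateField ℚ_[q] (PadicAlgCl q)) (hB : B = locBase q k τ)
    (M : IntermediateField B (PadicAlgCl q)) (hM : ∀ z, z ∈ M ↔ z ∈ locField q τ)
    [Normal B M] (ψ : (M ≃ₐ[B] M) →* (K ≃ₐ[k] K)) (e : K →+* M)
    (u₁ : Rep.res ψ A ⟶ Rep.ofAlgebraAutOnUnits B M)
    (he : ∀ x, ((e x : M) : PadicAlgCl q) = τ x)
    (hψ : ∀ (α : M ≃ₐ[B] M) (x : K), α (e x) = e (ψ α x))
    (hu : ∀ a : A, (((Additive.toMul (u₁.hom a) : Mˣ) : M) : PadicAlgCl q)
        = (((Additive.toMul (u.hom a) : (locExt q k τ)ˣ) : locExt q k τ) : PadicAlgCl q))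
    (x : groupCohomology A 2) :
    H66.inv q M ((groupCohomology.map ψ u₁ 2).hom x)
      = H66.inv q (locExt q k τ) ((groupCohomology.map (locGalToGlobal q k τ) u 2).hom x) := by
  subst hB
  obtain rfl : M = locExt q k τ := SetLike.ext hM
  obtain rfl : e = locExtEmb q k τ := RingHom.ext fun x => Subtype.ext (he x)
  obtain rfl : ψ = locGalToGlobal q k τ := locGalToGlobal_unique q k τ ψ hψ
  obtain rfl : u₁ = u := by
    refine repHom_ext_of_forall fun a => ?_
    exact congrArg Additive.ofMul (Units.ext (Subtype.ext (hu a)))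
  rfl

end Pres

/-! ### (J6): inflation -/

section Infl

variable (k K K' : Type) [Field k] [Field K] [Field K'] [Algebra k K] [Algebra k K']
  [Algebra K K'] [IsScalarTower k K K'] [Normal k K] [Normal k K']
  [NumberField k] [NumberField K] [NumberField K']

/-- **(J6), generic coefficients.**  Local inflation: for `f : A → A'` over
`Gal(K'/k) → Gal(K/k)` compatible with the evaluation maps at `τ''` and at its restriction to
`K`, the local invariant at `τ''` of the inflated class is the local invariant of the class at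
`τ'' ∘ algebraMap K K'`. -/
theorem inv_infl_gen (hInfl : H66.LeafInvInfl q) (τ'' : K' →+* PadicAlgCl q)
    {A : Rep.{0, 0, 0} ℤ (K ≃ₐ[k] K)} {A' : Rep.{0, 0, 0} ℤ (K' ≃ₐ[k] K')}
    (f : Rep.res (AlgEquiv.restrictNormalHom (F := k) (K₁ := K') K) A ⟶ A')
    (u : Rep.res (locGalToGlobal q k (τ''.comp (algebraMap K K'))) A ⟶
      Rep.ofAlgebraAutOnUnits (locBase q k (τ''.comp (algebraMap K K')))
        (locExt q k (τ''.comp (algebraMap K K'))))
    (u'' : Rep.res (locGalToGlobal q k τ'') A' ⟶
      Rep.ofAlgebraAutOnUnits (locBase q k τ'') (locExt q k τ''))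
    (hcomp : ∀ a : A,
      (((Additive.toMul (u''.hom (f.hom a)) : (locExt q k τ'')ˣ) : locExt q k τ'') : PadicAlgCl q)
        = (((Additive.toMul (u.hom a) : (locExt q k (τ''.comp (algebraMap K K')))ˣ) :
            locExt q k (τ''.comp (algebraMap K K'))) : PadicAlgCl q))
    (x : groupCohomology A 2) :
    H66.inv q (locExt q k τ'') ((groupCohomology.map (locGalToGlobal q k τ'') u'' 2).hom
        ((groupCohomology.map (AlgEquiv.restrictNormalHom (F := k) (K₁ := K') K) f 2).hom x))
      = H66.inv q (locExt q k (τ''.comp (algebraMap K K')))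
          ((groupCohomology.map (locGalToGlobal q k (τ''.comp (algebraMap K K'))) u 2).hom x) := by
  have hB : locBase q k τ'' = locBase q k (τ''.comp (algebraMap K K')) :=
    locBase_comp_algebraMap q k K K' τ''
  have hle : locBase q k τ'' ≤ locField q (τ''.comp (algebraMap K K')) :=
    hB ▸ locBase_le q k (τ''.comp (algebraMap K K'))
  let M : IntermediateField (locBase q k τ'') (PadicAlgCl q) := IntermediateField.extendScalars hle
  have hM : ∀ z, z ∈ M ↔ z ∈ locField q (τ''.comp (algebraMap K K')) := fun z => Iff.rfl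
  obtain ⟨hN, ψ, e, u₁, he, hψ, hu₁⟩ :=
    exists_pres_gen q k (τ''.comp (algebraMap K K')) u (locBase q k τ'') hB M hM
  have hML : M ≤ locExt q k τ'' := locField_comp_le q K K' τ''
  haveI : FiniteDimensional (locBase q k τ'') M :=
    finiteDimensional_of_mem_iff q _ M (locField q (τ''.comp (algebraMap K K'))) hM
  haveI : IsGalois (locBase q k τ'') M := isGalois_of_normal q _ M
  haveI : FiniteDimensional (locBase q k τ'') (locExt q k τ'') :=
    finiteDimensional_of_mem_iff q _ _ (locField q τ'') (fun _ => Iff.rfl)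
  haveI : IsGalois (locBase q k τ'') (locExt q k τ'') := isGalois_of_normal q _ _
  have key : (groupCohomology.map (locGalToGlobal q k τ'') u'' 2).hom
        ((groupCohomology.map (AlgEquiv.restrictNormalHom (F := k) (K₁ := K') K) f 2).hom x)
      = (H66.inflH2 hML).hom ((groupCohomology.map ψ u₁ 2).hom x) := by
    have hfg : (AlgEquiv.restrictNormalHom (F := k) (K₁ := K') K).comp (locGalToGlobal q k τ'')
        = ψ.comp (H66.resHom hML) := by
      refine MonoidHom.ext fun β => AlgEquiv.ext fun y => e.injective (Subtype.ext ?_)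
      have h1 : ((e (ψ (H66.resHom hML β) y) : M) : PadicAlgCl q)
          = ((β (locExtEmb q k τ'' (algebraMap K K' y)) : locExt q k τ'') : PadicAlgCl q) := by
        rw [← hψ, H66.resHom_apply]
        have h2 : IntermediateField.inclusion hML (e y) = locExtEmb q k τ'' (algebraMap K K' y) :=
          Subtype.ext (he y)
        rw [h2]
      rw [MonoidHom.comp_apply, MonoidHom.comp_apply, h1, locGalToGlobal_spec, he]
      show τ'' (algebraMap K K' ((locGalToGlobal q k τ'' β).restrictNormal K y)) = _
      rw [AlgEquiv.restrictNormal_commutes]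
      rfl
    have e1 : groupCohomology.map (AlgEquiv.restrictNormalHom (F := k) (K₁ := K') K) f 2 ≫
          groupCohomology.map (locGalToGlobal q k τ'') u'' 2
        = groupCohomology.map ψ u₁ 2 ≫ H66.inflH2 hML := by
      unfold H66.inflH2
      rw [← groupCohomology.map_comp, ← groupCohomology.map_comp]
      refine groupCohomology.map_congr hfg ?_ 2
      apply (config := { synthAssignedInstances := false }) LinearMap.ext
      intro a
      refine congrArg Additive.ofMul (Units.ext (Subtype.ext ?_))
      exact (hcomp a).trans (hu₁ a).symm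
    exact congrArg (fun g => g.hom x) e1
  rw [key, hInfl (locBase q k τ'') M (locExt q k τ'') hML,
    inv_eq_of_pres_gen q k (τ''.comp (algebraMap K K')) u (locBase q k τ'') hB M hM ψ e u₁ he hψ
      hu₁]

end Infl

/-! ### (J5): restriction -/

section Res

variable (k E K : Type) [Field k] [Field E] [Field K] [Algebra k E] [Algebra E K] [Algebra k K]
  [IsScalarTower k E K] [Normal k K] [NumberField k] [NumberField E] [NumberField K]

/-- The square `transport ∘ loc_E ∘ res = res_loc ∘ loc_k` on `H²`, generic coefficients. -/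
theorem res_key_gen [Normal E K] (τ : K →+* PadicAlgCl q)
    {A : Rep.{0, 0, 0} ℤ (K ≃ₐ[k] K)} {A' : Rep.{0, 0, 0} ℤ (K ≃ₐ[E] K)}
    (s : Rep.res (H29.subGal k E K) A ⟶ A')
    (u : Rep.res (locGalToGlobal q k τ) A ⟶
      Rep.ofAlgebraAutOnUnits (locBase q k τ) (locExt q k τ))
    (u' : Rep.res (locGalToGlobal q E τ) A' ⟶
      Rep.ofAlgebraAutOnUnits (locBase q E τ) (locExt q E τ))
    (hcomp : ∀ a : A,
      (((Additive.toMul (u'.hom (s.hom a)) : (locExt q E τ)ˣ) : locExt q E τ) : PadicAlgCl q)
        = (((Additive.toMul (u.hom a) : (locExt q k τ)ˣ) : locExt q k τ) : PadicAlgCl q))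
    (L : IntermediateField (locBase q k τ) (PadicAlgCl q)) (hLE : L ≤ locExt q k τ)
    (e : locBase q E τ ≃+* L)
    (he : IsCompat (q := q) (AlgEquiv.refl : PadicAlgCl q ≃ₐ[ℚ_[q]] PadicAlgCl q) e)
    (hL : IsImage (q := q) (AlgEquiv.refl : PadicAlgCl q ≃ₐ[ℚ_[q]] PadicAlgCl q)
      (locExt q E τ) (IntermediateField.extendScalars hLE))
    (x : groupCohomology A 2) :
    (transH2 he hL).hom ((groupCohomology.map (locGalToGlobal q E τ) u' 2).hom
        ((groupCohomology.map (H29.subGal k E K) s 2).hom x))
      = (H66.resH2 hLE).hom ((groupCohomology.map (locGalToGlobal q k τ) u 2).hom x) := by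
  have hfg : (H29.subGal k E K).comp ((locGalToGlobal q E τ).comp (galMap he hL))
      = (locGalToGlobal q k τ).comp (upHom hLE) := by
    refine MonoidHom.ext fun β => AlgEquiv.ext fun y => τ.injective ?_
    have h1 := congrArg (fun z : locExt q E τ => (z : PadicAlgCl q))
      (locGalToGlobal_spec q E τ (galMap he hL β) y)
    have h2 := coe_galMap he hL β (locExtEmb q E τ y)
    have h3 := congrArg (fun z : locExt q k τ => (z : PadicAlgCl q))
      (locGalToGlobal_spec q k τ (upHom hLE β) y)
    have h4 : fieldEquiv hL (locExtEmb q E τ y) = (upEquiv hLE).symm (locExtEmb q k τ y) :=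
      Subtype.ext (upEquiv_symm_apply_coe hLE (locExtEmb q k τ y)).symm
    have h5 : τ (locGalToGlobal q E τ (galMap he hL β) y)
        = τ (locGalToGlobal q k τ (upHom hLE β) y) := by
      refine h1.symm.trans (Eq.trans ?_ h3)
      refine h2.trans ?_
      rw [h4]
      rfl
    exact h5
  have e1 : groupCohomology.map (H29.subGal k E K) s 2 ≫
        (groupCohomology.map (locGalToGlobal q E τ) u' 2 ≫ transH2 he hL)
      = groupCohomology.map (locGalToGlobal q k τ) u 2 ≫ H66.resH2 hLE := by
    unfold transH2 H66.resH2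
    rw [← groupCohomology.map_comp, ← groupCohomology.map_comp, ← groupCohomology.map_comp]
    refine groupCohomology.map_congr hfg ?_ 2
    apply (config := { synthAssignedInstances := false }) LinearMap.ext
    intro a
    refine congrArg Additive.ofMul (Units.ext (Subtype.ext ?_))
    exact (hcomp a).trans (upEquiv_symm_apply_coe hLE _).symm
  exact congrArg (fun g => g.hom x) e1

/-- **(J5), generic coefficients.**  Local restriction: for `s : A → A'` over
`Gal(K/E) → Gal(K/k)` compatible with the evaluation maps at `τ`, the local invariant over `E`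
of the restricted class is `[E_w : k_v]` times the local invariant over `k`. -/
theorem inv_res_gen (hRes : H66.LeafInvRes q) [Normal E K] (τ : K →+* PadicAlgCl q)
    {A : Rep.{0, 0, 0} ℤ (K ≃ₐ[k] K)} {A' : Rep.{0, 0, 0} ℤ (K ≃ₐ[E] K)}
    (s : Rep.res (H29.subGal k E K) A ⟶ A')
    (u : Rep.res (locGalToGlobal q k τ) A ⟶
      Rep.ofAlgebraAutOnUnits (locBase q k τ) (locExt q k τ))
    (u' : Rep.res (locGalToGlobal q E τ) A' ⟶
      Rep.ofAlgebraAutOnUnits (locBase q E τ) (locExt q E τ))
    (hcomp : ∀ a : A,
      (((Additive.toMul (u'.hom (s.hom a)) : (locExt q E τ)ˣ) : locExt q E τ) : PadicAlgCl q)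
        = (((Additive.toMul (u.hom a) : (locExt q k τ)ˣ) : locExt q k τ) : PadicAlgCl q))
    (x : groupCohomology A 2) :
    H66.inv q (locExt q E τ) ((groupCohomology.map (locGalToGlobal q E τ) u' 2).hom
        ((groupCohomology.map (H29.subGal k E K) s 2).hom x))
      = Module.finrank (locBase q k (τ.comp (algebraMap E K)))
          (locExt q k (τ.comp (algebraMap E K))) •
        H66.inv q (locExt q k τ) ((groupCohomology.map (locGalToGlobal q k τ) u 2).hom x) := by
  have hB : locBase q k τ = locBase q k (τ.comp (algebraMap E K)) :=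
    locBase_comp_algebraMap' q k K τ
  have hFle : locBase q k τ ≤ locField q (τ.comp (algebraMap E K)) :=
    hB ▸ locBase_le q k (τ.comp (algebraMap E K))
  let L : IntermediateField (locBase q k τ) (PadicAlgCl q) := IntermediateField.extendScalars hFle
  have hLmem : ∀ z, z ∈ L ↔ z ∈ locField q (τ.comp (algebraMap E K)) := fun z => Iff.rfl
  have hLE : L ≤ locExt q k τ := locField_comp_le q E K τ
  haveI : FiniteDimensional (locBase q k τ) L :=
    finiteDimensional_of_mem_iff q _ L (locField q (τ.comp (algebraMap E K))) hLmem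
  haveI : FiniteDimensional (locBase q k τ) (locExt q k τ) :=
    finiteDimensional_of_mem_iff q _ _ (locField q τ) (fun _ => Iff.rfl)
  haveI : IsGalois (locBase q k τ) (locExt q k τ) := isGalois_of_normal q _ _
  haveI : FiniteDimensional L (IntermediateField.extendScalars hLE) := finiteDimensional_up q hLE
  haveI : IsGalois L (IntermediateField.extendScalars hLE) := isGalois_up q hLE
  -- the two presentations of `K_w / E_w`
  let e : locBase q E τ ≃+* L :=
    { toFun := fun z => ⟨z.1, z.2⟩
      invFun := fun y => ⟨y.1, y.2⟩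
      left_inv := fun _ => rfl
      right_inv := fun _ => rfl
      map_mul' := fun _ _ => rfl
      map_add' := fun _ _ => rfl }
  have he : IsCompat (q := q) (AlgEquiv.refl : PadicAlgCl q ≃ₐ[ℚ_[q]] PadicAlgCl q) e :=
    fun z => rfl
  have hL : IsImage (q := q) (AlgEquiv.refl : PadicAlgCl q ≃ₐ[ℚ_[q]] PadicAlgCl q)
      (locExt q E τ) (IntermediateField.extendScalars hLE) := fun z => Iff.rfl
  haveI : FiniteDimensional (locBase q E τ) (locExt q E τ) :=
    finiteDimensional_of_mem_iff q _ _ (locField q τ) (fun _ => Iff.rfl)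
  haveI : IsGalois (locBase q E τ) (locExt q E τ) := isGalois_of_normal q _ _
  have hT := inv_transH2 he hL ((groupCohomology.map (locGalToGlobal q E τ) u' 2).hom
    ((groupCohomology.map (H29.subGal k E K) s 2).hom x))
  have hR := hRes (locBase q k τ) L (locExt q k τ) hLE
    ((groupCohomology.map (locGalToGlobal q k τ) u 2).hom x)
  have hdeg : Module.finrank (locBase q k τ) L
      = Module.finrank (locBase q k (τ.comp (algebraMap E K)))
          (locExt q k (τ.comp (algebraMap E K))) :=
    finrank_eq_of_pres q k (τ.comp (algebraMap E K)) (locBase q k τ) hB L hLmem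
  have key := res_key_gen q k E K τ s u u' hcomp L hLE e he hL x
  rw [← hT, key, hR, hdeg]

end Res

/-! ### Instances: the ideles of `H29/C8Idele.lean` -/

attribute [local instance] factOfPrimes

section IdeleVal

variable (k : Type) {K : Type} [Field k] [Field K] [Algebra k K] [Normal k K]

/-- The value of the localisation of an idele at `τ'`: its component at `q`, evaluated at `τ'`. -/
theorem ideleToLoc_val (q : Nat.Primes) (τ' : K →+* PadicAlgCl (q : ℕ)) (b : ideleRep k K) :
    (((Additive.toMul ((H29.ideleToLoc k q τ').hom b) :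
        (locExt (q : ℕ) k τ')ˣ) : locExt (q : ℕ) k τ') : PadicAlgCl (q : ℕ))
      = (((((Additive.toMul (α := ideleGroup K) b : ideleGroup K) :
          ∀ q : Nat.Primes, (semiLocal (q : ℕ) K)ˣ) q : (semiLocal (q : ℕ) K)ˣ) :
            semiLocal (q : ℕ) K) : (K →+* PadicAlgCl (q : ℕ)) → PadicAlgCl (q : ℕ)) τ' := rfl

end IdeleVal

section IdeleInfl

variable (k K K' : Type) [Field k] [Field K] [Field K'] [Algebra k K] [Algebra k K']
  [Algebra K K'] [IsScalarTower k K K'] [Normal k K] [Normal k K']
  [NumberField k] [NumberField K] [NumberField K']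

/-- The evaluation maps of the ideles are compatible with the inclusion `J_K → J_{K'}`. -/
theorem ideleToLoc_ideleInfl (q : Nat.Primes) (τ'' : K' →+* PadicAlgCl (q : ℕ))
    (a : ideleRep k K) :
    (((Additive.toMul ((H29.ideleToLoc k q τ'').hom ((H29.ideleInfl k K K').hom a)) :
        (locExt (q : ℕ) k τ'')ˣ) : locExt (q : ℕ) k τ'') : PadicAlgCl (q : ℕ))
      = (((Additive.toMul ((H29.ideleToLoc k q (τ''.comp (algebraMap K K'))).hom a) :
          (locExt (q : ℕ) k (τ''.comp (algebraMap K K')))ˣ) :
            locExt (q : ℕ) k (τ''.comp (algebraMap K K'))) : PadicAlgCl (q : ℕ)) :=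
  (ideleToLoc_val k q τ'' ((H29.ideleInfl k K K').hom a)).trans
    ((H29.ideleInflHom_apply K K' (Additive.toMul (α := ideleGroup K) a) q τ'').trans
      (ideleToLoc_val k q (τ''.comp (algebraMap K K')) a).symm)

/-- **(J6)** for ideles, at an embedding: the idele invariant at `τ''` of the inflation of an
idele class of `K / k` is its idele invariant at `τ'' ∘ algebraMap K K'`. -/
theorem jinvAt_ideleInfl (q : Nat.Primes) (τ'' : K' →+* PadicAlgCl (q : ℕ))
    (x : groupCohomology (ideleRep k K) 2) :
    H29.jinvAt k q τ'' ((groupCohomology.map (AlgEquiv.restrictNormalHom (F := k) (K₁ := K') K)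
        (H29.ideleInfl k K K') 2).hom x)
      = H29.jinvAt k q (τ''.comp (algebraMap K K')) x :=
  inv_infl_gen (q : ℕ) k K K' (H66.c3_invInfl (q : ℕ)) τ'' (H29.ideleInfl k K K')
    (H29.ideleToLoc k q (τ''.comp (algebraMap K K'))) (H29.ideleToLoc k q τ'')
    (ideleToLoc_ideleInfl k K K' q τ'') x

/-- **(J6)** for ideles, layer form: inflation `K / k → K' / k` preserves the idele invariants
at the chosen places (given that `H29.jinvAt` for `K / k` only depends on the place of `k`). -/
theorem jinv_ideleInfl
    (hIndepJ : ∀ (q : Nat.Primes) (τ' τ'' : K →+* PadicAlgCl (q : ℕ)),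
      (placeSetoid (q : ℕ) k).r (τ'.comp (algebraMap k K)) (τ''.comp (algebraMap k K)) →
        H29.jinvAt k q τ' = H29.jinvAt k q τ'')
    (v : FinPlace k) (x : groupCohomology (ideleRep k K) 2) :
    H29.jinv k K' v ((groupCohomology.map (AlgEquiv.restrictNormalHom (F := k) (K₁ := K') K)
        (H29.ideleInfl k K K') 2).hom x) = H29.jinv k K v x := by
  show H29.jinvAt k v.1 (v.ext K') _ = H29.jinvAt k v.1 (v.ext K) x
  rw [jinvAt_ideleInfl k K K' v.1 (v.ext K') x]
  refine congrArg (fun f => f x) (hIndepJ v.1 _ _ ?_)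
  have hK' : (v.ext K').comp (algebraMap k K') = v.emb := FinPlace.ext_comp K' v
  have hK : (v.ext K).comp (algebraMap k K) = v.emb := FinPlace.ext_comp K v
  have h1 : ((v.ext K').comp (algebraMap K K')).comp (algebraMap k K)
      = (v.ext K).comp (algebraMap k K) := by
    rw [RingHom.comp_assoc, ← IsScalarTower.algebraMap_eq, hK', hK]
  rw [h1]

end IdeleInfl

section IdeleSub

variable (k E K : Type) [Field k] [Field E] [Field K] [Algebra k E] [Algebra E K] [Algebra k K]
  [IsScalarTower k E K] [Normal k K] [NumberField k] [NumberField E] [NumberField K]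

/-- The evaluation maps of the ideles over `k` and over `E` agree. -/
theorem ideleToLoc_ideleSub [Normal E K] (q : Nat.Primes) (τ : K →+* PadicAlgCl (q : ℕ))
    (a : ideleRep k K) :
    (((Additive.toMul ((H29.ideleToLoc E q τ).hom ((H29.ideleSub k E K).hom a)) :
        (locExt (q : ℕ) E τ)ˣ) : locExt (q : ℕ) E τ) : PadicAlgCl (q : ℕ))
      = (((Additive.toMul ((H29.ideleToLoc k q τ).hom a) :
          (locExt (q : ℕ) k τ)ˣ) : locExt (q : ℕ) k τ) : PadicAlgCl (q : ℕ)) :=
  (ideleToLoc_val E q τ ((H29.ideleSub k E K).hom a)).trans (ideleToLoc_val k q τ a).symm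

/-- **(J5)** for ideles, at an embedding: restriction to `Gal(K/E)` multiplies the idele
invariant at `τ` by the local degree `[E_w : k_v]`. -/
theorem jinvAt_ideleSub [Normal E K] (q : Nat.Primes) (τ : K →+* PadicAlgCl (q : ℕ))
    (x : groupCohomology (ideleRep k K) 2) :
    H29.jinvAt E q τ ((groupCohomology.map (H29.subGal k E K) (H29.ideleSub k E K) 2).hom x)
      = Module.finrank (locBase (q : ℕ) k (τ.comp (algebraMap E K)))
          (locExt (q : ℕ) k (τ.comp (algebraMap E K))) • H29.jinvAt k q τ x :=
  inv_res_gen (q : ℕ) k E K (H69.leafInvRes (q : ℕ)) τ (H29.ideleSub k E K)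
    (H29.ideleToLoc k q τ) (H29.ideleToLoc E q τ) (ideleToLoc_ideleSub k E K q τ) x

/-- **(J5)** for ideles, layer form: restriction to `Gal(K/E)` multiplies the idele invariants
at the chosen places by the local degrees (given that `H29.jinvAt` for `K / k` only depends on
the place of `k`). -/
theorem jinv_ideleSub [Normal E K]
    (hIndepJ : ∀ (q : Nat.Primes) (τ' τ'' : K →+* PadicAlgCl (q : ℕ)),
      (placeSetoid (q : ℕ) k).r (τ'.comp (algebraMap k K)) (τ''.comp (algebraMap k K)) →
        H29.jinvAt k q τ' = H29.jinvAt k q τ'')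
    (w : FinPlace E) (x : groupCohomology (ideleRep k K) 2) :
    H29.jinv E K w ((groupCohomology.map (H29.subGal k E K) (H29.ideleSub k E K) 2).hom x)
      = w.locDeg k • H29.jinv k K (w.below k) x := by
  have hKE : (w.ext K).comp (algebraMap E K) = w.emb := FinPlace.ext_comp K w
  have h1 := jinvAt_ideleSub k E K w.1 (w.ext K) x
  rw [hKE] at h1
  have h2 : H29.jinvAt k w.1 (w.ext K) = H29.jinvAt k w.1 ((w.below k).ext K) := by
    refine hIndepJ w.1 _ _ ?_
    have h3 : (w.ext K).comp (algebraMap k K) = w.emb.comp (algebraMap k E) := by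
      rw [← hKE, RingHom.comp_assoc, ← IsScalarTower.algebraMap_eq]
    have h4 : ((w.below k).ext K).comp (algebraMap k K) = (w.below k).emb :=
      FinPlace.ext_comp K (w.below k)
    obtain ⟨g, hg⟩ := below_emb_rel k E w
    exact ⟨g, h4.trans (hg.trans (congrArg (fun t : k →+* PadicAlgCl (w.1 : ℕ) =>
      (g : PadicAlgCl (w.1 : ℕ) →+* PadicAlgCl (w.1 : ℕ)).comp t) h3.symm))⟩
  rw [h2] at h1
  exact h1

end IdeleSub

end Fermat.Agent.S55.H32
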